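import Fermat.Agent.Lifting.Deform.Ordinary
import Fermat.Agent.EC.Rep.Local.Line
import Fermat.Agent.RT.Glue.Basic

/-!
# Ordinarity of a representation from a family of points

A representation whose image spans the endomorphisms, with cyclotomic determinant, is ordinary
(strictly ordinary) at an odd `p` if the representations at a jointly injective family of points
with the same traces and determinants are.
-/

set_option autoImplicit false
set_option linter.style.haveILetI false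

noncomputable section

open IsLocalRing Module Matrix

namespace Fermat.Agent.OrdinaryAtP

open Fermat.Agent.Lifting (squareInertia squareInertia_spec IsLineBasis)
open GaloisReps (AbsGal HeckeGaloisModel)
open Deform (M2)

/-- A common row eigenvector of the decomposition group, fixed by inertia; of sign eigenvalue if
`strict` holds. -/
def HasOrdRow {K : Type} [CommRing K] (r : AbsGal →* M2 K)
    (P : ValuationSubring (AlgebraicClosure ℚ)) (strict : Prop) : Prop :=
  ∃ w : Fin 2 → K, w ≠ 0 ∧ ∀ g ∈ P.decompositionSubgroup ℚ, ∃ z : K, w ᵥ* r g = z • w ∧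
    (g ∈ P.inertiaSubgroupIn ℚ → z = 1) ∧ (strict → z * z = 1)

/-- A row eigenvector gives a triangular form with the same traces and determinants. -/
theorem exists_triangular {K : Type} [Field K] {r : AbsGal →* M2 K}
    {P : ValuationSubring (AlgebraicClosure ℚ)} {strict : Prop} (h : HasOrdRow r P strict) :
    ∃ T : AbsGal →* M2 K, (∀ g, (T g).trace = (r g).trace ∧ (T g).det = (r g).det) ∧
      ∀ g ∈ P.decompositionSubgroup ℚ, T g 1 0 = 0 ∧
        (g ∈ P.inertiaSubgroupIn ℚ → T g 1 1 = 1) ∧ (strict → T g 1 1 * T g 1 1 = 1) := by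
  obtain ⟨w, hw, h⟩ := h
  obtain ⟨Q, hQ, hrow⟩ : ∃ Q : M2 K, Q.det ≠ 0 ∧ Q 1 = w := by
    by_cases h1 : w 1 = 0
    · have h0 : w 0 ≠ 0 := fun h0 => hw (funext fun i => by fin_cases i <;> assumption)
      exact ⟨Matrix.of ![![0, 1], w], by simp [Matrix.det_fin_two, h1, h0], rfl⟩
    · exact ⟨Matrix.of ![![1, 0], w], by simp [Matrix.det_fin_two, h1], rfl⟩
  have hu : IsUnit Q.det := isUnit_iff_ne_zero.mpr hQ
  let T : AbsGal →* M2 K :=
    { toFun := fun g => Q * r g * Q⁻¹
      map_one' := by rw [map_one, mul_one, Q.mul_nonsing_inv hu]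
      map_mul' := fun g g' => by
        simp only [map_mul, mul_assoc, Q.nonsing_inv_mul_cancel_left _ hu] }
  refine ⟨T, fun g => ⟨?_, ?_⟩, fun g hg => ?_⟩
  · show (Q * r g * Q⁻¹).trace = _
    rw [Matrix.trace_mul_cycle, Q.nonsing_inv_mul hu, one_mul]
  · show (Q * r g * Q⁻¹).det = _
    rw [Matrix.det_conj ((Matrix.isUnit_iff_isUnit_det Q).mpr hu)]
  obtain ⟨z, hz, hI, hS⟩ := h g hg
  have hrow1 : T g 1 = z • (1 : M2 K) 1 := by
    show (Q * r g * Q⁻¹) 1 = _
    rw [Matrix.mul_apply_eq_vecMul, Matrix.mul_apply_eq_vecMul, hrow, hz, Matrix.smul_vecMul,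
      ← hrow, ← Matrix.mul_apply_eq_vecMul, Q.mul_nonsing_inv hu]
  have e0 : T g 1 0 = 0 := by rw [hrow1]; simp
  have e1 : T g 1 1 = z := by rw [hrow1]; simp
  exact ⟨e0, fun hi => e1.trans (hI hi), fun hs => by rw [e1]; exact hS hs⟩

variable {A : Type} [CommRing A] [IsLocalRing A] {ρ : GaloisRepAdic A} {p : ℕ} [hpf : Fact p.Prime]
  {ι : Type*} {K : ι → Type} [∀ i, Field (K i)] (f : ∀ i, A →+* K i)
  (r : ∀ i, AbsGal →* M2 (K i))

/-- The equations of a line, checked at the points. -/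
theorem exists_line_of_points (hdet : ρ.DetIsCyclotomic p) (hp2 : p ≠ 2)
    (hspan : Submodule.span A (Set.range ρ.ρ) = ⊤)
    (hinj : ∀ a : A, (∀ i, f i a = 0) → a = 0)
    (htr : ∀ i g, f i (LinearMap.trace A ρ.V (ρ.ρ g)) = (r i g).trace)
    (hd : ∀ i g, f i (LinearMap.det (ρ.ρ g)) = (r i g).det)
    {P : ValuationSubring (AlgebraicClosure ℚ)} (hP : P.LiesOverPrime p) (strict : Prop)
    (hrow : ∀ i, HasOrdRow (r i) P strict) :
    ∃ b : Basis (Fin 2) A ρ.V, ∀ g ∈ P.decompositionSubgroup ℚ,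
      LinearMap.toMatrix b b (ρ.ρ g) 1 0 = 0 ∧
        (g ∈ P.inertiaSubgroupIn ℚ → LinearMap.toMatrix b b (ρ.ρ g) 1 1 = 1) ∧
        (strict → LinearMap.toMatrix b b (ρ.ρ g) 1 1 * LinearMap.toMatrix b b (ρ.ρ g) 1 1 = 1) := by
  choose T hT hTP using fun i => exists_triangular (hrow i)
  obtain ⟨hσ, hμ⟩ := squareInertia_spec (Fact.out : p.Prime) hp2 hP
  set σ₀ := squareInertia p P
  have hσD : σ₀ ∈ P.decompositionSubgroup ℚ := (Arith.mem_inertia_iff_forall_mem.mp hσ).1
  have hu := Lifting.isUnit_det_sub_one hdet hμ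
  have htr0 : (Lifting.traceEq σ₀).val ρ = 0 := by
    simp only [Lifting.traceEq, Lifting.NatEnd.smul_val, Lifting.NatEnd.one_val,
      Lifting.smul_one_eq_zero_iff, Lifting.NatScalar.sub_val, Lifting.NatScalar.trace_val,
      Lifting.NatEnd.gal_val, Lifting.NatScalar.det_val, Lifting.NatScalar.int_val, Int.cast_one]
    refine hinj _ fun i => ?_
    obtain ⟨h10, h11, -⟩ := hTP i _ hσD
    rw [map_sub, map_sub, map_one, htr, hd, ← (hT i σ₀).1, ← (hT i σ₀).2, Matrix.trace_fin_two,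
      Matrix.det_fin_two, h10, h11 hσ]
    ring
  obtain ⟨b, hb⟩ := Lifting.exists_lineBasis_of_traceEq htr0 hu
  set Mh : AbsGal →* M2 A := (LinearMap.toMatrixAlgEquiv b).toMonoidHom.comp ρ.ρ with hMh
  have hMh' : ∀ g, LinearMap.toMatrix b b (ρ.ρ g) = Mh g := fun g => rfl
  have hMtr : ∀ i g, f i (Mh g).trace = (T i g).trace := fun i g => by
    rw [(hT i g).1, ← htr, LinearMap.trace_eq_matrix_trace A b]
    rfl
  set d := LinearMap.det (ρ.ρ σ₀) with hd'
  -- trace forms detect zero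
  have hzero : ∀ X : M2 A, (∀ g, (X * Mh g).trace = 0) → X = 0 := by
    intro X hX
    have hall : ∀ Y : M2 A, (X * Y).trace = 0 := by
      intro Y
      have hY : Matrix.toLin b b Y ∈ Submodule.span A (Set.range ρ.ρ) := by
        rw [hspan]; trivial
      rw [← LinearMap.toMatrix_toLin b b Y]
      generalize Matrix.toLin b b Y = y at hY ⊢
      induction hY using Submodule.span_induction with
      | mem y hy => obtain ⟨g, rfl⟩ := hy; exact hX g
      | zero => simp
      | add y y' _ _ h h' => simp [map_add, mul_add, Matrix.trace_add, h, h']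
      | smul c y _ h => simp [map_smul, Matrix.mul_smul, Matrix.trace_smul, h]
    ext i j
    have := hall (Matrix.single j i 1)
    fin_cases i <;> fin_cases j <;>
      simpa [Matrix.trace_fin_two, Matrix.mul_apply, Fin.sum_univ_two, Matrix.single_apply] using this
  refine ⟨b, fun g hg => ?_⟩
  have hg10 : Mh g 1 0 = 0 := by
    have hX : (d • (1 : M2 A) - Mh σ₀) * Mh g * (Mh σ₀ - 1) = 0 := by
      refine hzero _ fun h => hinj _ fun i => ?_
      have e : ((d • (1 : M2 A) - Mh σ₀) * Mh g * (Mh σ₀ - 1) * Mh h).trace =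
          d * (Mh (g * (σ₀ * h))).trace - d * (Mh (g * h)).trace -
            (Mh (σ₀ * (g * (σ₀ * h)))).trace + (Mh (σ₀ * (g * h))).trace := by
        simp only [map_mul, sub_mul, mul_sub, mul_one, Matrix.trace_sub, Matrix.smul_mul, one_mul,
          Matrix.trace_smul, smul_eq_mul, mul_assoc]
        ring
      rw [e, map_add, map_sub, map_sub, map_mul (f i), map_mul (f i), hMtr, hMtr, hMtr, hMtr, hd,
        ← (hT i _).2]
      obtain ⟨a10, a11, -⟩ := hTP i _ hσD
      obtain ⟨g10, -, -⟩ := hTP i g hg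
      simp only [map_mul, Matrix.trace_fin_two, Matrix.det_fin_two, Matrix.mul_apply,
        Fin.sum_univ_two, a10, a11 hσ, g10]
      ring
    have h10 := congrFun (congrFun hX 1) 0
    simp [Matrix.mul_apply, Fin.sum_univ_two, ← hMh', hb.1, hb.2,
      ← Lifting.det_eq_of_isLineBasis b hb] at h10
    exact hu.mul_right_eq_zero.mp (hu.mul_left_eq_zero.mp h10)
  refine ⟨hg10, fun hgI => ?_, fun hs => ?_⟩
  · have hX : (d • (1 : M2 A) - Mh σ₀) * (Mh g - 1) = 0 := by
      refine hzero _ fun h => hinj _ fun i => ?_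
      have e : ((d • (1 : M2 A) - Mh σ₀) * (Mh g - 1) * Mh h).trace =
          d * (Mh (g * h)).trace - d * (Mh h).trace -
            (Mh (σ₀ * (g * h))).trace + (Mh (σ₀ * h)).trace := by
        simp only [map_mul, sub_mul, mul_sub, mul_one, Matrix.trace_sub, Matrix.smul_mul, one_mul,
          Matrix.trace_smul, smul_eq_mul, mul_assoc]
        ring
      rw [e, map_add, map_sub, map_sub, map_mul (f i), map_mul (f i), hMtr, hMtr, hMtr, hMtr, hd,
        ← (hT i _).2]
      obtain ⟨a10, a11, -⟩ := hTP i _ hσD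
      obtain ⟨g10, g11, -⟩ := hTP i g hg
      simp only [map_mul, Matrix.trace_fin_two, Matrix.det_fin_two, Matrix.mul_apply,
        Fin.sum_univ_two, a10, a11 hσ, g10, g11 hgI]
      ring
    have h11 := congrFun (congrFun hX 1) 1
    simp [Matrix.mul_apply, Fin.sum_univ_two, ← hMh', hb.1, hb.2] at h11
    exact sub_eq_zero.mp (hu.mul_right_eq_zero.mp h11)
  · have e : ((d • (1 : M2 A) - Mh σ₀) * Mh g).trace = (d - 1) * Mh g 1 1 := by
      simp [Matrix.trace_fin_two, Matrix.mul_apply, Fin.sum_univ_two, ← hMh', hb.1, hb.2,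
        ← Lifting.det_eq_of_isLineBasis b hb, show LinearMap.toMatrix b b (ρ.ρ g) 1 0 = 0 from hg10, ← hd']
    have key : ((d • (1 : M2 A) - Mh σ₀) * Mh g).trace ^ 2 - (d - 1) ^ 2 = 0 := by
      refine hinj _ fun i => ?_
      have e' : ((d • (1 : M2 A) - Mh σ₀) * Mh g).trace =
          d * (Mh g).trace - (Mh (σ₀ * g)).trace := by
        simp only [map_mul, sub_mul, Matrix.trace_sub, Matrix.smul_mul, one_mul,
          Matrix.trace_smul, smul_eq_mul]
      rw [e', map_sub, map_pow, map_pow, map_sub, map_sub, map_mul (f i), map_one, hMtr, hMtr, hd,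
        ← (hT i _).2]
      obtain ⟨a10, a11, -⟩ := hTP i _ hσD
      obtain ⟨g10, -, g11⟩ := hTP i g hg
      simp only [map_mul, Matrix.trace_fin_two, Matrix.det_fin_two, Matrix.mul_apply,
        Fin.sum_univ_two, a10, a11 hσ, g10]
      linear_combination (T i σ₀ 0 0 - 1) ^ 2 * g11 hs
    rw [e] at key
    have h2 : (d - 1) * ((d - 1) * (Mh g 1 1 * Mh g 1 1 - 1)) = 0 := by linear_combination key
    exact sub_eq_zero.mp (hu.mul_right_eq_zero.mp (hu.mul_right_eq_zero.mp h2))

/-- Ordinarity from the points. -/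
theorem isOrdinaryAt_of_points (hdet : ρ.DetIsCyclotomic p) (hp2 : p ≠ 2)
    (hspan : Submodule.span A (Set.range ρ.ρ) = ⊤)
    (hinj : ∀ a : A, (∀ i, f i a = 0) → a = 0)
    (htr : ∀ i g, f i (LinearMap.trace A ρ.V (ρ.ρ g)) = (r i g).trace)
    (hd : ∀ i g, f i (LinearMap.det (ρ.ρ g)) = (r i g).det)
    (hrow : ∀ P : ValuationSubring (AlgebraicClosure ℚ), P.LiesOverPrime p →
      ∀ i, HasOrdRow (r i) P False) :
    ρ.IsOrdinaryAt p := by
  intro P hP
  obtain ⟨b, hb⟩ := exists_line_of_points f r hdet hp2 hspan hinj htr hd hP False (hrow P hP)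
  refine ⟨A ∙ b 0, ⟨b, rfl⟩, fun g hg => (Lifting.stable_iff_toMatrix b g).mpr (hb g hg).1,
    fun g hg v => ?_⟩
  have hgD := (Arith.mem_inertia_iff_forall_mem.mp hg).1
  simpa using (Lifting.quot_iff_toMatrix b g 1).mpr ⟨(hb g hgD).1, (hb g hgD).2.1 hg⟩ v

/-- Strict ordinarity from the points. -/
theorem isStrictOrdinaryAt_of_points (hdet : ρ.DetIsCyclotomic p) (hp2 : p ≠ 2)
    (hspan : Submodule.span A (Set.range ρ.ρ) = ⊤)
    (hinj : ∀ a : A, (∀ i, f i a = 0) → a = 0)
    (htr : ∀ i g, f i (LinearMap.trace A ρ.V (ρ.ρ g)) = (r i g).trace)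
    (hd : ∀ i g, f i (LinearMap.det (ρ.ρ g)) = (r i g).det)
    (hrow : ∀ P : ValuationSubring (AlgebraicClosure ℚ), P.LiesOverPrime p →
      ∀ i, HasOrdRow (r i) P True) :
    ρ.IsStrictOrdinaryAt p := by
  refine EC.Rep.isStrictOrdinaryAt_of_lines ρ hdet fun P hP => ?_
  obtain ⟨b, hb⟩ := exists_line_of_points f r hdet hp2 hspan hinj htr hd hP True (hrow P hP)
  refine ⟨b, fun g hg v => ?_, fun g hg => ⟨?_, LinearMap.toMatrix b b (ρ.ρ g) 1 1,
    (hb g hg).2.2 trivial, (Lifting.quot_iff_toMatrix b g _).mpr ⟨(hb g hg).1, rfl⟩⟩⟩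
  · have hgD := (Arith.mem_inertia_iff_forall_mem.mp hg).1
    simpa using (Lifting.quot_iff_toMatrix b g 1).mpr ⟨(hb g hgD).1, (hb g hgD).2.1 hg⟩ v
  · exact (Lifting.stable_iff_toMatrix b g).mpr (hb g hg).1 _
      (Submodule.mem_span_singleton_self _)

/-! ### The glued representation -/

section Glue

open RT RT.Glue

variable {O : Type} [CommRing O] [IsDomain O] [IsDiscreteValuationRing O]
  [IsAdicComplete (maximalIdeal O) O] [Finite (ResidueField O)] [CharZero O]
  {p : ℕ} [Fact p.Prime]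
  {L : ℕ} [NeZero L] {Δ : Type} [CommGroup Δ] [Finite Δ] {ψ : (ZMod L)ˣ →* Δ} {S : Finset ℕ}
  {abar : ℕ → ResidueField O}
  {H : HeckeModule L ψ S abar} {hS : ∀ q : ℕ, q.Prime → q ∣ L → q ∈ S}
  [IsLocalRing H.algebra] {D : ∀ (M : ℕ) [NeZero M], HeckeGaloisModel M p}

omit [IsAdicComplete (maximalIdeal O) O] [Finite (ResidueField O)] [CharZero O] [NeZero L]
  [Finite Δ] [IsLocalRing H.algebra] in
/-- A line of a representation with the eigen matrices gives the row at the point. -/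
theorem hasOrdRow_of_line {θK : H.algebra →+* KBar O} (x : Point (p := p) H hS θK)
    {V : Type*} [AddCommGroup V] [Module x.R V] (b b₀ : Basis (Fin 2) x.R V)
    (ρ : AbsGal →* Module.End x.R V)
    (hρ : ∀ g, LinearMap.toMatrix b₀ b₀ (ρ g) = (D x.M).eigenMatrix x.ι x.θ' g)
    (P : ValuationSubring (AlgebraicClosure ℚ)) (strict : Prop)
    (hI : ∀ g ∈ P.inertiaSubgroupIn ℚ, ∀ v, ρ g v - v ∈ x.R ∙ b 0)
    (hD : ∀ g ∈ P.decompositionSubgroup ℚ, ρ g (b 0) ∈ x.R ∙ b 0)
    (hz : strict → ∀ g ∈ P.decompositionSubgroup ℚ,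
      ∃ z : x.R, z * z = 1 ∧ ∀ v, ρ g v - z • v ∈ x.R ∙ b 0) :
    HasOrdRow (x.rep D) P strict := by
  have hmem : ∀ v, v ∈ x.R ∙ b 0 → b.repr v 1 = 0 := fun v hv => by
    obtain ⟨c, rfl⟩ := Submodule.mem_span_singleton.mp hv
    simp
  set q : Fin 2 → x.R := fun j => b.toMatrix b₀ 1 j with hq
  refine ⟨fun j => x.j (q j), fun h0 => ?_, fun g hg => ?_⟩
  · have h1 : (b.toMatrix b₀ * b₀.toMatrix b) 1 1 = 1 := by
      rw [b.toMatrix_mul_toMatrix_flip b₀, Matrix.one_apply_eq]
    rw [Matrix.mul_apply, Fin.sum_univ_two] at h1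
    have q0 : ∀ j, b.toMatrix b₀ 1 j = 0 := fun j => (map_eq_zero_iff _ x.j_injective).mp
      (congrFun h0 j)
    rw [q0 0, q0 1, zero_mul, zero_mul, add_zero] at h1
    exact zero_ne_one h1
  set z := LinearMap.toMatrix b b (ρ g) 1 1 with hzdef
  have h10 : LinearMap.toMatrix b b (ρ g) 1 0 = 0 := by
    rw [LinearMap.toMatrix_apply]; exact hmem _ (hD g hg)
  have hqe : q ᵥ* LinearMap.toMatrix b₀ b₀ (ρ g) = z • q := by
    funext j
    have h := congrFun (congrFun (show b.toMatrix b₀ * LinearMap.toMatrix b₀ b₀ (ρ g) =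
      LinearMap.toMatrix b b (ρ g) * b.toMatrix b₀ by
        rw [basis_toMatrix_mul_linearMap_toMatrix, linearMap_toMatrix_mul_basis_toMatrix]) 1) j
    rw [Matrix.mul_apply, Matrix.mul_apply, Fin.sum_univ_two, Fin.sum_univ_two, h10, zero_mul,
      zero_add] at h
    simpa [Matrix.vecMul, dotProduct, Fin.sum_univ_two, hq] using h
  refine ⟨x.j z, ?_, fun hgI => ?_, fun hs => ?_⟩
  · rw [x.rep_apply D, ← hρ]
    funext j
    have := congrArg x.j (congrFun hqe j)
    simpa [Matrix.vecMul, dotProduct, Fin.sum_univ_two] using this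
  · have h := hmem _ (hI g hgI (b 1))
    rw [map_sub, Finsupp.sub_apply, b.repr_self, Finsupp.single_eq_same, sub_eq_zero] at h
    rw [hzdef, LinearMap.toMatrix_apply, h, map_one]
  · obtain ⟨c, hc, hv⟩ := hz hs g hg
    have h := hmem _ (hv (b 1))
    rw [map_sub, map_smul, Finsupp.sub_apply, Finsupp.smul_apply, b.repr_self,
      Finsupp.single_eq_same, smul_eq_mul, mul_one, sub_eq_zero] at h
    rw [hzdef, LinearMap.toMatrix_apply, h, ← map_mul, hc, map_one]

variable {pt : ∀ θ : H.algebra →ₐ[O] KBar O, Point (p := p) H hS θ.toRingHom} (G : Glued D pt)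

theorem span_range_glued : Submodule.span H.algebra (Set.range G.rep.ρ) = ⊤ := by
  refine eq_top_iff.mpr fun y _ => ?_
  let e : M2 H.algebra ≃ₗ[H.algebra] Module.End H.algebra G.rep.V :=
    Matrix.toLinAlgEquiv'.toLinearEquiv
  obtain ⟨Y, rfl⟩ := e.surjective y
  have hY : Y ∈ Submodule.span H.algebra (Set.range G.R) := by
    rw [G.span_eq_top]; trivial
  have h := Submodule.mem_map_of_mem (f := e.toLinearMap) hY
  rw [Submodule.map_span, ← Set.range_comp] at h
  exact h

/-- The glued representation is ordinary if the points are. -/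
theorem isOrdinaryAt_glued (hp : (p : O) ∈ maximalIdeal O) (hΔ : IsPGroup p Δ) (hp2 : p ≠ 2)
    (hrow : ∀ P : ValuationSubring (AlgebraicClosure ℚ), P.LiesOverPrime p →
      ∀ θ, HasOrdRow ((pt θ).rep D) P False) :
    G.rep.IsOrdinaryAt p :=
  isOrdinaryAt_of_points (fun θ : H.algebra →ₐ[O] KBar O => θ.toRingHom) (fun θ => (pt θ).rep D)
    (G.detIsCyclotomic hp hΔ) hp2 (span_range_glued G)
    (fun _ ha => eq_zero_of_forall_point ha)
    (fun θ g => by rw [G.trace_rep]; exact G.trace_eq θ g)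
    (fun θ g => by rw [G.det_rep]; exact G.det_eq θ g) hrow

/-- The glued representation is strictly ordinary if the points are. -/
theorem isStrictOrdinaryAt_glued (hp : (p : O) ∈ maximalIdeal O) (hΔ : IsPGroup p Δ) (hp2 : p ≠ 2)
    (hrow : ∀ P : ValuationSubring (AlgebraicClosure ℚ), P.LiesOverPrime p →
      ∀ θ, HasOrdRow ((pt θ).rep D) P True) :
    G.rep.IsStrictOrdinaryAt p :=
  isStrictOrdinaryAt_of_points (fun θ : H.algebra →ₐ[O] KBar O => θ.toRingHom)
    (fun θ => (pt θ).rep D) (G.detIsCyclotomic hp hΔ) hp2 (span_range_glued G)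
    (fun _ ha => eq_zero_of_forall_point ha)
    (fun θ g => by rw [G.trace_rep]; exact G.trace_eq θ g)
    (fun θ g => by rw [G.det_rep]; exact G.det_eq θ g) hrow

end Glue

end Fermat.Agent.OrdinaryAtP

end
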