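import Fermat.Agent.OrdinaryAtP.Transfer
import Fermat.Agent.Mazur.Eisenstein.CycInertia
import Mathlib.LinearAlgebra.FreeModule.PID

/-!
# A line from moved vectors of rank one

The saturation of a submodule of rank one of a free module of rank two is a line; if the vectors moved by an inertia group at `p` span a submodule of rank less than two of a
representation over a principal ideal domain of characteristic zero with cyclotomic determinant,
then their saturation is a line through which the representation is ordinary.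
-/

set_option autoImplicit false

noncomputable section

open Module
open scoped Pointwise
open Fermat.Agent.GaloisReps

namespace Fermat.Agent.OrdinaryAtP

variable {T : Type} [CommRing T] [IsLocalRing T]

/-- The span of the vectors `τ v - v`, `τ` in inertia. -/
def movedSpan (ρ : GaloisRepAdic T) (P : ValuationSubring (AlgebraicClosure ℚ)) :
    Submodule T ρ.V :=
  Submodule.span T {y | ∃ τ ∈ P.inertiaSubgroupIn ℚ, ∃ v : ρ.V, ρ.ρ τ v - v = y}

variable {ρ : GaloisRepAdic T} {P : ValuationSubring (AlgebraicClosure ℚ)}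

theorem map_mem_movedSpan {σ : Arith.GQ} (hσ : σ ∈ P.decompositionSubgroup ℚ) {y : ρ.V}
    (hy : y ∈ movedSpan ρ P) : ρ.ρ σ y ∈ movedSpan ρ P := by
  refine Submodule.span_induction ?_ (by rw [map_zero]; exact zero_mem _)
    (fun x z _ _ hx hz => by rw [map_add]; exact add_mem hx hz)
    (fun c x _ hx => by rw [map_smul]; exact Submodule.smul_mem _ c hx) hy
  rintro _ ⟨τ, hτ, v, rfl⟩
  have hconj : σ * τ * σ⁻¹ ∈ P.inertiaSubgroupIn ℚ := by
    have := (Arith.mem_inertia_smul_iff (g := σ) (A := P)).mpr hτ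
    rwa [(Arith.mem_decomposition_iff (A := P)).mp hσ] at this
  refine Submodule.subset_span ⟨_, hconj, ρ.ρ σ v, ?_⟩
  rw [map_sub, ← Module.End.mul_apply, ← map_mul, ← Module.End.mul_apply (ρ.ρ σ), ← map_mul,
    inv_mul_cancel_right]

variable [IsDomain T] [IsPrincipalIdealRing T]

/-- The saturation of a nonzero submodule of a free module of rank two, no multiple of which lies in
it, is a line. -/
theorem exists_line_of_submodule {V : Type} [AddCommGroup V] [Module T V] [Module.Free T V]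
    [Module.Finite T V] (hV : finrank T V = 2) {W : Submodule T V} {w : V} (hw : w ∈ W)
    (hw0 : w ≠ 0) (hbig : ∀ c : T, c ≠ 0 → ∃ v, c • v ∉ W) :
    ∃ L : Submodule T V,
      (∃ b : Basis (Fin 2) T V, L = T ∙ b 0) ∧ W ≤ L ∧
      ∀ f : Module.End T V, (∀ y ∈ W, f y ∈ W) → ∀ v ∈ L, f v ∈ L := by
  classical
  let L : Submodule T V :=
    { carrier := {v | ∃ c : T, c ≠ 0 ∧ c • v ∈ W}
      add_mem' := by
        rintro x y ⟨c, hc, hx⟩ ⟨d, hd, hy⟩
        refine ⟨c * d, mul_ne_zero hc hd, ?_⟩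
        rw [smul_add]
        refine add_mem ?_ ?_
        · rw [mul_comm, mul_smul]; exact W.smul_mem d hx
        · rw [mul_smul]; exact W.smul_mem c hy
      zero_mem' := ⟨1, one_ne_zero, by rw [smul_zero]; exact zero_mem W⟩
      smul_mem' := by
        rintro a x ⟨c, hc, hx⟩
        exact ⟨c, hc, by rw [smul_comm]; exact W.smul_mem a hx⟩ }
  have hWL : W ≤ L := fun w hw => ⟨1, one_ne_zero, by rwa [one_smul]⟩
  have htf : Module.IsTorsionFree T (V ⧸ L) := by
    refine Module.IsTorsionFree.of_smul_eq_zero fun c x hx => or_iff_not_imp_left.mpr fun hc => ?_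
    obtain ⟨v, rfl⟩ := Submodule.Quotient.mk_surjective L x
    rw [← Submodule.Quotient.mk_smul, Submodule.Quotient.mk_eq_zero] at hx
    obtain ⟨d, hd, hv⟩ := hx
    exact (Submodule.Quotient.mk_eq_zero L).mpr ⟨d * c, mul_ne_zero hd hc, by rwa [mul_smul]⟩
  have : Module.Free T (V ⧸ L) := Module.free_of_finite_type_torsion_free'
  obtain ⟨s, hs⟩ := Module.projective_lifting_property L.mkQ (LinearMap.id (R := T) (M := V ⧸ L))
    L.mkQ_surjective
  set e : Module.End T V := 1 - s.comp L.mkQ with he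
  have hs' : ∀ x, Submodule.Quotient.mk (s x) = x := fun x => LinearMap.congr_fun hs x
  have heL : ∀ v, e v ∈ L := fun v => by
    rw [← Submodule.Quotient.mk_eq_zero L, he, LinearMap.sub_apply, Submodule.Quotient.mk_sub,
      Module.End.one_apply, LinearMap.comp_apply, hs', Submodule.mkQ_apply, sub_self]
  have hid : ∀ v ∈ L, e v = v := fun v hv => by
    rw [he, LinearMap.sub_apply, LinearMap.comp_apply, Submodule.mkQ_apply,
      (Submodule.Quotient.mk_eq_zero L).mpr hv, map_zero, sub_zero, Module.End.one_apply]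
  have hrange : LinearMap.range e = L :=
    le_antisymm (by rintro _ ⟨v, rfl⟩; exact heL v) fun v hv => ⟨v, hid v hv⟩
  have he0 : e ≠ 0 := fun h => hw0 (by rw [← hid _ (hWL hw), h, LinearMap.zero_apply])
  have he1 : e ≠ 1 := fun h => by
    let b := Module.finBasisOfFinrankEq T V hV
    have hb : ∀ i, b i ∈ L := fun i => by
      have := heL (b i)
      rwa [h, Module.End.one_apply] at this
    choose c hc hcb using hb
    obtain ⟨v, hv⟩ := hbig (c 0 * c 1) (mul_ne_zero (hc 0) (hc 1))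
    refine hv ?_
    rw [← b.sum_repr v, Finset.smul_sum]
    refine sum_mem fun i _ => ?_
    rw [smul_comm]
    refine W.smul_mem _ ?_
    fin_cases i
    · rw [mul_comm, mul_smul]; exact W.smul_mem _ (hcb 0)
    · rw [mul_smul]; exact W.smul_mem _ (hcb 1)
  obtain ⟨b, hb⟩ := exists_basis_range_eq hV
    (LinearMap.ext fun v => hid _ (heL v)) he0 he1
  refine ⟨L, ⟨b, hrange ▸ hb⟩, hWL, ?_⟩
  rintro f hf v ⟨c, hc, hv⟩
  exact ⟨c, hc, by rw [← map_smul]; exact hf _ hv⟩

/-- Rank one moved vectors give ordinarity at one place. -/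
theorem exists_line_of_movedSpan
    (hne : ∃ τ ∈ P.inertiaSubgroupIn ℚ, LinearMap.det (ρ.ρ τ) ≠ 1)
    (hbig : ∀ c : T, c ≠ 0 → ∃ v, c • v ∉ movedSpan ρ P) :
    ∃ L : Submodule T ρ.V,
      (∃ b : Basis (Fin 2) T ρ.V, L = T ∙ b 0) ∧
      (∀ σ ∈ P.decompositionSubgroup ℚ, ∀ v ∈ L, ρ.ρ σ v ∈ L) ∧
      (∀ σ ∈ P.inertiaSubgroupIn ℚ, ∀ v : ρ.V, ρ.ρ σ v - v ∈ L) := by
  obtain ⟨τ, hτ, hdet⟩ := hne
  obtain ⟨v, hv⟩ : ∃ v, ρ.ρ τ v - v ≠ 0 := by
    by_contra! h
    have h1 : ρ.ρ τ = 1 := LinearMap.ext fun v => sub_eq_zero.mp (h v)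
    exact hdet (by rw [h1, map_one])
  obtain ⟨L, hb, hWL, hstab⟩ := exists_line_of_submodule ρ.finrank_eq
    (W := movedSpan ρ P) (Submodule.subset_span ⟨τ, hτ, v, rfl⟩) hv hbig
  exact ⟨L, hb, fun σ hσ => hstab _ fun y hy => map_mem_movedSpan hσ hy,
    fun σ hσ v => hWL (Submodule.subset_span ⟨σ, hσ, v, rfl⟩)⟩

omit [IsPrincipalIdealRing T] in
/-- A cyclotomic determinant is not trivial on inertia. -/
theorem exists_det_ne_one [CharZero T] {p : ℕ} (hp : p.Prime) (hP : P.LiesOverPrime p)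
    (hdet : ρ.DetIsCyclotomic p) :
    ∃ τ ∈ P.inertiaSubgroupIn ℚ, LinearMap.det (ρ.ρ τ) ≠ 1 := by
  obtain ⟨τ, hτ, hinv⟩ := Mazur.Eisenstein.exists_inertia_inv hP hp 2
  refine ⟨τ, hτ, fun h1 => ?_⟩
  have hpos : 1 ≤ p ^ 2 := Nat.one_le_pow _ _ hp.pos
  have h := hdet.2 2 τ (p ^ 2 - 1) fun μ hμ => by
    rw [hinv μ hμ]
    exact inv_eq_of_mul_eq_one_right (by rw [← pow_succ', Nat.sub_add_cancel hpos, hμ])
  rw [h1, Nat.cast_sub hpos, Ideal.mem_span_singleton] at h
  obtain ⟨x, hx⟩ := h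
  have e : (2 : T) = (p : T) * ((p : T) * (x + 1)) := by
    push_cast at hx
    linear_combination hx
  rcases hp.eq_two_or_odd with rfl | hodd
  · have e' : (1 : T) = (2 : T) * (x + 1) :=
      mul_left_cancel₀ (two_ne_zero (α := T)) (by push_cast at e; linear_combination e)
    exact (IsLocalRing.mem_maximalIdeal _).mp
      (by simpa using hdet.1) (IsUnit.of_mul_eq_one _ e'.symm)
  · obtain ⟨r, hr⟩ : ∃ r, p = 2 * r + 1 := ⟨p / 2, by omega⟩
    have h2 : (2 : T) ∈ IsLocalRing.maximalIdeal T := e ▸ Ideal.mul_mem_right _ _ hdet.1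
    refine (IsLocalRing.maximalIdeal.isMaximal T).ne_top ((Ideal.eq_top_iff_one _).mpr ?_)
    have h3 := Ideal.sub_mem _ hdet.1 (Ideal.mul_mem_right (r : T) _ h2)
    rwa [show (p : T) = 2 * (r : T) + 1 by rw [hr]; push_cast; ring, add_sub_cancel_left] at h3

/-- Ordinarity when no multiple of the space consists of moved vectors. -/
theorem isOrdinaryAt_of_movedSpan [CharZero T] (ρ : GaloisRepAdic T) {p : ℕ} (hp : p.Prime)
    (hdet : ρ.DetIsCyclotomic p)
    (hbig : ∀ P : ValuationSubring (AlgebraicClosure ℚ), P.LiesOverPrime p →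
      ∀ c : T, c ≠ 0 → ∃ v, c • v ∉ movedSpan ρ P) :
    ρ.IsOrdinaryAt p := fun P hP =>
  exists_line_of_movedSpan (exists_det_ne_one hp hP hdet) (hbig P hP)

omit [IsLocalRing T] [IsDomain T] [IsPrincipalIdealRing T] in
/-- On a line with trivial quotient an element acts by the determinant. -/
theorem apply_basis_zero {V : Type} [AddCommGroup V] [Module T V] (b : Basis (Fin 2) T V)
    (f : Module.End T V) (h0 : f (b 0) ∈ T ∙ b 0) (h1 : f (b 1) - b 1 ∈ T ∙ b 0) :
    f (b 0) = LinearMap.det f • b 0 := by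
  obtain ⟨x, hx⟩ := Submodule.mem_span_singleton.mp h0
  obtain ⟨y, hy⟩ := Submodule.mem_span_singleton.mp h1
  have h1' : f (b 1) = y • b 0 + b 1 := by rw [hy, sub_add_cancel]
  have : LinearMap.det f = x := by
    rw [← LinearMap.det_toMatrix b, Matrix.det_fin_two]
    simp [LinearMap.toMatrix_apply, ← hx, h1']
  rw [this, hx]

end Fermat.Agent.OrdinaryAtP

end
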