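import Fermat.Agent.OrdinaryAtP.Flat.Push
import Fermat.Agent.Semistable.LocalTheory
import Fermat.Agent.Semistable.RootLemmas

/-!
# The square of Frobenius moves classes killed by both push forwards into flat classes

If the norms to level `M` of a function `f` and of its image under the involution are `m`-th
powers, with `r 0`, `r 1` the reductions of scaled expansions of `f`, then `r 0 * Frob (r 1)` and
`r 1 * Frob (r 0)` are `m`-th powers, hence so are the reductions `κ Frob² (r s) / r s` of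
`σ² f / f`: after division by an `m`-th power the quotient has both reductions equal to one.
-/

set_option autoImplicit false
set_option synthInstance.maxHeartbeats 400000
set_option maxHeartbeats 1000000

noncomputable section

namespace Fermat.Agent.OrdinaryAtP

open AlgebraicCurve ModularCurve Semistable JacTorsion
open NewformLocal.Toric (normUp)
open Arith (QBar GQ)

variable {A : ValuationSubring QBar} {M p : ℕ} [NeZero M] [Fact p.Prime] (hpM : ¬ p ∣ M)
  [CharP (Res A) p]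

include hpM in
/-- The norm being a power gives the relation of the reductions of the scaled expansions. -/
theorem exists_red1_pow_eq (hA : A.LiesOverPrime p) {m : ℕ} (hm : m ≠ 0) {x : FB (p * M)}
    {a b : QBar} (ha : algebraMap QBar LSer a * (x : LSer) ∈ locS A)
    (hb : algebraMap QBar LSer b * (wEquiv p M hpM x : LSer) ∈ locS A)
    (ha0 : redL A ⟨_, ha⟩ ≠ 0) (hb0 : redL A ⟨_, hb⟩ ≠ 0) {g : FB M}
    (hg : normUp p M x = g ^ m) :
    ∃ G : loc2 A (iota1 M),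
      red1 A M G ^ m = redL A ⟨_, ha⟩ * coeffMap (frobenius (Res A) p) (redL A ⟨_, hb⟩) := by
  obtain ⟨e, he⟩ := IsAlgClosed.exists_pow_nat_eq (a * b ^ p) (Nat.pos_of_ne_zero hm)
  obtain ⟨hN, hNr⟩ := NewformLocal.Toric.redL_normUp hpM hA ha hb ha0 hb0
  set y : FB M := algebraMap QBar (FB M) e * g
  have hy : (y : LSer) = algebraMap QBar LSer e * (g : LSer) := rfl
  have eN : algebraMap QBar LSer (a * b ^ p) * (normUp p M x : LSer) = (y : LSer) ^ m := by
    rw [hy, mul_pow, ← map_pow, he, hg, IntermediateField.coe_pow]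
  have hym : (y : LSer) ^ m ∈ locS A := eN ▸ hN
  have hval : redL A ⟨_, hym⟩ =
      redL A ⟨_, ha⟩ * coeffMap (frobenius (Res A) p) (redL A ⟨_, hb⟩) := by
    rw [← hNr]
    exact redL_congr _ _ eN.symm
  have hne : redL A ⟨_, hym⟩ ≠ 0 := by
    rw [hval]; exact mul_ne_zero ha0 ((map_ne_zero _).mpr hb0)
  have hyl : (y : LSer) ∈ locS A :=
    mem_locS_of_pow hA (Fact.out : p.Prime) (mem_fracS_of_mem y) hm hym hne
  refine ⟨⟨y, (mem_loc1 M).mpr hyl⟩, ?_⟩
  rw [← hval, red1_eq, ← map_pow]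
  exact redL_congr _ _ rfl

omit [Fact p.Prime] [CharP (Res A) p] in
theorem mem_of_valuation_eq_one {z : QBar} (hz : A.valuation z = 1) :
    ∃ h : z ∈ A, IsLocalRing.residue A ⟨z, h⟩ ≠ 0 :=
  ⟨(A.valuation_le_one_iff z).mp hz.le, fun h0 =>
    ((ValuationSubring.mem_nonunits_iff A).mp ((residue_eq_zero_iff _).mp h0)).ne hz⟩

include hpM in
/-- **The square of Frobenius maps classes killed by both degeneracy maps to flat classes.** -/
theorem exists_hasUnitRed_frobSq (hA : A.LiesOverPrime p) (hM : (M : Res A) ≠ 0) {σ : GQ}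
    (hσ : A.IsFrobeniusAt σ p) {m : ℕ} (hm : m ≠ 0) {x : FB (p * M)} (hx : x ≠ 0)
    (hN : IsNormPow p M hpM m x) :
    ∃ u : FB (p * M), u ≠ 0 ∧
      HasUnitRed A M p hpM (galF (p * M) σ (galF (p * M) σ x) / x / u ^ m) := by
  have := Arith.residueField_isAlgClosed A
  have hL := resLift_of_frobenius hσ
  set F := coeffMap (frobenius (Res A) p) with hFdef
  have hw0 : wEquiv p M hpM x ≠ 0 := (map_ne_zero _).mpr hx
  obtain ⟨a, ha', ha, ha0⟩ := exists_scale hA (Fact.out : p.Prime) (mem_fracS_of_mem (A := A) x)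
    (fun h0 => hx (Subtype.ext h0))
  obtain ⟨b, hb', hb, hb0⟩ := exists_scale hA (Fact.out : p.Prime)
    (mem_fracS_of_mem (A := A) (wEquiv p M hpM x)) (fun h0 => hw0 (Subtype.ext h0))
  set r₀ := redL A ⟨_, ha⟩ with hr₀
  set r₁ := redL A ⟨_, hb⟩ with hr₁
  obtain ⟨⟨g, -, hg⟩, g', -, hg'⟩ := hN
  have haw : algebraMap QBar LSer a * (wEquiv p M hpM (wEquiv p M hpM x) : LSer) ∈ locS A := by
    rw [wEquiv_wEquiv]; exact ha
  have ew : redL A ⟨_, haw⟩ = r₀ := redL_congr _ _ (by rw [wEquiv_wEquiv])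
  obtain ⟨G, hG⟩ := exists_red1_pow_eq hpM hA hm ha hb ha0 hb0 hg
  obtain ⟨G', hG'⟩ := exists_red1_pow_eq hpM hA hm hb haw hb0 (ew ▸ ha0) hg'
  rw [← hr₀, ← hr₁] at hG
  rw [ew, ← hr₁] at hG'
  have hG0 : red1 A M G ≠ 0 := fun h0 => by
    rw [h0, zero_pow hm] at hG
    exact mul_ne_zero ha0 ((map_ne_zero _).mpr hb0) hG.symm
  have hG'0 : red1 A M G' ≠ 0 := fun h0 => by
    rw [h0, zero_pow hm] at hG'
    exact mul_ne_zero hb0 ((map_ne_zero _).mpr ha0) hG'.symm
  obtain ⟨hσG, eσG⟩ := hL.galF_mem_loc1 M G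
  obtain ⟨hσG', eσG'⟩ := hL.galF_mem_loc1 M G'
  -- one expansion of `σ² x / x`
  have side : ∀ {c : QBar} {X : LSer} (hc : c ≠ 0) (hX : algebraMap QBar LSer c * X ∈ locS A)
      (hr : redL A ⟨_, hX⟩ ≠ 0), ∃ κ : Res A, κ ≠ 0 ∧
      ∃ h : coeffMap (σ : QBar →+* QBar) (coeffMap (σ : QBar →+* QBar) X) / X ∈ locS A,
        redL A ⟨_, h⟩ = algebraMap (Res A) (LaurentSeries (Res A)) κ *
          (F (F (redL A ⟨_, hX⟩)) * (redL A ⟨_, hX⟩)⁻¹) := by
    intro c X hc hX hr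
    obtain ⟨h1, e1⟩ := hL.redL_coeffMap hX
    obtain ⟨h2, e2⟩ := hL.redL_coeffMap h1
    obtain ⟨hi, ei⟩ := inv_mem_locS hX hr
    obtain ⟨hκ, hκ0⟩ := mem_of_valuation_eq_one (A := A) (z := c / σ (σ c)) (by
      rw [map_div₀, hL.valuation_eq, hL.valuation_eq, div_self ((Valuation.ne_zero_iff _).mpr hc)])
    have e : coeffMap (σ : QBar →+* QBar) (coeffMap (σ : QBar →+* QBar) X) / X =
        ((⟨_, algebraMap_mem_locS hκ⟩ * (⟨_, h2⟩ * ⟨_, hi⟩) : locS A) : LSer) := by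
      show _ = algebraMap QBar LSer (c / σ (σ c)) *
        (coeffMap (σ : QBar →+* QBar) (coeffMap (σ : QBar →+* QBar) (algebraMap QBar LSer c * X)) *
          (algebraMap QBar LSer c * X)⁻¹)
      have hX0 : X ≠ 0 := fun h0 => hr (by
        have : (⟨_, hX⟩ : locS A) = 0 :=
          Subtype.ext (show algebraMap QBar LSer c * X = 0 by rw [h0, mul_zero])
        rw [this, map_zero])
      rw [map_mul, coeffMap_algebraMap, map_mul, coeffMap_algebraMap, map_div₀]
      have := (map_ne_zero (algebraMap QBar LSer)).mpr hc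
      have := (map_ne_zero (algebraMap QBar LSer)).mpr
        ((map_ne_zero σ).mpr ((map_ne_zero σ).mpr hc))
      simp only [RingHom.coe_coe]
      field_simp
    refine ⟨_, hκ0, e ▸ SetLike.coe_mem _, ?_⟩
    rw [redL_congr _ (SetLike.coe_mem _) e]
    change redL A (_ * _) = _
    rw [map_mul, map_mul, redL_algebraMap hκ, e2, e1, ei]
  obtain ⟨κ₀, hκ₀, hm₀, e₀⟩ := side ha' ha ha0
  obtain ⟨κ₁, hκ₁, hm₁, e₁⟩ := side hb' hb hb0
  obtain ⟨ρ₀, hρ₀⟩ := IsAlgClosed.exists_pow_nat_eq κ₀ (Nat.pos_of_ne_zero hm)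
  obtain ⟨ρ₁, hρ₁⟩ := IsAlgClosed.exists_pow_nat_eq κ₁ (Nat.pos_of_ne_zero hm)
  -- lift the roots
  have hk₀ : algebraMap (Res A) (LaurentSeries (Res A)) ρ₀ * (F (red1 A M G') / red1 A M G) ∈
      KM A M := mul_mem ((KM A M).algebraMap_mem ρ₀)
    (div_mem (eσG' ▸ red1_mem_KM M hM ⟨_, hσG'⟩) (red1_mem_KM M hM G))
  have hk₁ : algebraMap (Res A) (LaurentSeries (Res A)) ρ₁ * (F (red1 A M G) / red1 A M G') ∈
      KM A M := mul_mem ((KM A M).algebraMap_mem ρ₁)
    (div_mem (eσG ▸ red1_mem_KM M hM ⟨_, hσG⟩) (red1_mem_KM M hM G'))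
  obtain ⟨u, hu⟩ := red2_surjective M p hpM hM hk₀ hk₁
  have hρne : ρ₀ ≠ 0 ∧ ρ₁ ≠ 0 :=
    ⟨fun h0 => hκ₀ (by rw [← hρ₀, h0, zero_pow hm]), fun h0 => hκ₁ (by rw [← hρ₁, h0, zero_pow hm])⟩
  have hu0 : ∀ s, red2 A (iota2 M p hpM) u s ≠ 0 := fun s => by
    rw [hu]; fin_cases s <;>
      simp [hG0, hG'0, hρne.1, hρne.2, F, (algebraMap (Res A) (LaurentSeries (Res A))).injective]
  -- the quotient
  set t := galF (p * M) σ (galF (p * M) σ x) / x with ht
  have i₀ : iota2 M p hpM 0 t =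
      coeffMap (σ : QBar →+* QBar) (coeffMap (σ : QBar →+* QBar) (x : LSer)) / (x : LSer) := by
    rw [ht, map_div₀]
    rfl
  have i₁ : iota2 M p hpM 1 t =
      coeffMap (σ : QBar →+* QBar) (coeffMap (σ : QBar →+* QBar) (wEquiv p M hpM x : LSer)) /
        (wEquiv p M hpM x : LSer) := by
    rw [ht, map_div₀, iota2_one, iota2_one, wEquiv_galois, coe_arithmeticRingAut, wEquiv_galois,
      coe_arithmeticRingAut]
  have htl : t ∈ loc2 A (iota2 M p hpM) := (mem_loc2 _).mpr fun s => by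
    fin_cases s
    · exact i₀ ▸ hm₀
    · exact i₁ ▸ hm₁
  obtain ⟨hui, eui⟩ := inv_mem_loc2 (iota2 M p hpM) (u ^ m) fun s => by
    rw [map_pow, Pi.pow_apply]; exact pow_ne_zero _ (hu0 s)
  refine ⟨u, fun h0 => hu0 0 ?_, ?_⟩
  · rw [show u = 0 from Subtype.ext h0, map_zero]; rfl
  have e : t / (u : FB (p * M)) ^ m =
      (((⟨t, htl⟩ : loc2 A (iota2 M p hpM)) * ⟨_, hui⟩ : loc2 A (iota2 M p hpM)) :
        FB (p * M)) := by
    simp only [div_eq_mul_inv, Subring.coe_mul, SubmonoidClass.coe_pow]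
  refine ⟨e ▸ SetLike.coe_mem _, ?_⟩
  rw [show (⟨_, e ▸ SetLike.coe_mem _⟩ : loc2 A (iota2 M p hpM)) =
    ⟨t, htl⟩ * ⟨_, hui⟩ from Subtype.ext e, map_mul]
  funext s
  rw [Pi.mul_apply, Pi.one_apply, eui, map_pow, Pi.pow_apply, hu, red2_apply]
  have hF : F (red1 A M G) ^ m = F r₀ * F (F r₁) := by rw [← map_pow, hG, map_mul]
  have hF' : F (red1 A M G') ^ m = F r₁ * F (F r₀) := by rw [← map_pow, hG', map_mul]
  have hFr : ∀ z, z ≠ 0 → F z ≠ 0 := fun z hz => (map_ne_zero _).mpr hz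
  have := hFr _ ha0
  have := hFr _ hb0
  have := hFr _ (hFr _ ha0)
  have := hFr _ (hFr _ hb0)
  fin_cases s
  · show redL A ⟨iota2 M p hpM 0 t, _⟩ *
      ((algebraMap (Res A) (LaurentSeries (Res A)) ρ₀ * (F (red1 A M G') / red1 A M G)) ^ m)⁻¹ = 1
    rw [redL_congr _ hm₀ i₀, e₀, mul_pow, ← map_pow, hρ₀, div_pow, hF', hG, ← hr₀]
    have := (map_ne_zero (algebraMap (Res A) (LaurentSeries (Res A)))).mpr hκ₀
    field_simp
    rfl
  · show redL A ⟨iota2 M p hpM 1 t, _⟩ *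
      ((algebraMap (Res A) (LaurentSeries (Res A)) ρ₁ * (F (red1 A M G) / red1 A M G')) ^ m)⁻¹ = 1
    rw [redL_congr _ hm₁ i₁, e₁, mul_pow, ← map_pow, hρ₁, div_pow, hF, hG', ← hr₁]
    have := (map_ne_zero (algebraMap (Res A) (LaurentSeries (Res A)))).mpr hκ₁
    field_simp
    rfl

include hpM in
/-- `(σ² - 1) x` is flat for a class `x` with norms which are powers. -/
theorem frobSq_sub_mem_flatCls (hA : A.LiesOverPrime p) (hM : (M : Res A) ≠ 0) {σ : GQ}
    (hσ : A.IsFrobeniusAt σ p) {m : ℕ} [NeZero m] (f : divGrp QBar (FB (p * M)) m)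
    (hN : IsNormPow p M hpM m ((f : (FB (p * M))ˣ) : FB (p * M))) :
    σ • σ • kclass p M f - kclass p M f ∈ flatCls A p M hpM m := by
  set x : FB (p * M) := ((f : (FB (p * M))ˣ) : FB (p * M)) with hxdef
  obtain ⟨u, hu, hur⟩ := exists_hasUnitRed_frobSq hpM hA hM hσ (NeZero.ne m) (Units.ne_zero _) hN
  set g := arithmeticGalois (modularFunctionFieldFull (p * M)) σ
  let v : divGrp QBar (FB (p * M)) m := ⟨Units.mk0 u hu ^ m, fun P => by
    rw [Units.val_pow_eq_pow_val, Units.val_mk0, FF.ord_pow]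
    exact dvd_mul_right _ _⟩
  have hv : kclass p M v = 0 := by
    have : toTorsion (Additive.ofMul v) = 0 := (toTorsion_eq_zero_iff v).mpr ⟨Units.mk0 u hu, rfl⟩
    rw [kclass, this]
    rfl
  refine ⟨smulDiv g (smulDiv g f) * f⁻¹ * v⁻¹, ?_, ?_⟩
  · rw [kclass_mul, kclass_mul, kclass_inv, kclass_inv, hv, neg_zero, add_zero,
      galois_kclass, galois_kclass, sub_eq_add_neg]
  · have e : (((smulDiv g (smulDiv g f) * f⁻¹ * v⁻¹ : divGrp QBar (FB (p * M)) m) :
        (FB (p * M))ˣ) : FB (p * M)) = galF (p * M) σ (galF (p * M) σ x) / x / u ^ m := by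
      simp only [Subgroup.coe_mul, Subgroup.coe_inv, Units.val_mul, Units.val_inv_eq_inv_val,
        coe_smulDiv, div_eq_mul_inv]
      rfl
    rw [e]
    exact hur

include hpM in
/-- `(σ² - 1) x` is flat for a class `x` killed by both push forwards. -/
theorem frobSq_sub_mem_flatCls_of_push (hA : A.LiesOverPrime p) (hM : (M : Res A) ≠ 0) {σ : GQ}
    (hσ : A.IsFrobeniusAt σ p) {m : ℕ} [NeZero m] {y : Pic0 QBar (FB (p * M))}
    (hy : (m : ℤ) • y = 0) (h1 : pushUp p M y = 0) (h2 : pushW p M hpM y = 0) :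
    σ • σ • y - y ∈ flatCls A p M hpM m := by
  obtain ⟨f, hf⟩ := toTorsion_surjective (K := QBar) (F := FB (p * M)) (m := m)
    ⟨y, Pic0.mem_torsion.mpr hy⟩
  obtain rfl : kclass p M f.toMul = y := congrArg Subtype.val hf
  exact frobSq_sub_mem_flatCls hpM hA hM hσ _ (isNormPow_of_push hpM f.toMul h1 h2)

end Fermat.Agent.OrdinaryAtP

end
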