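import Mathlib.LinearAlgebra.Matrix.NonsingularInverse
import Mathlib.LinearAlgebra.Matrix.Trace
import Mathlib.LinearAlgebra.Dimension.Free
import Mathlib.LinearAlgebra.FreeModule.PID
import Mathlib.LinearAlgebra.Dual.Lemmas
import Mathlib.Algebra.Module.Torsion.Free
import Mathlib.Algebra.Module.Torsion.Basic

/-!
# Planes with a prescribed trace

A two dimensional matrix representation with the traces of one spanning all matrices spans all
matrices, has no larger kernel, and a submodule either contains a multiple of the whole space or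
is killed by a functional.
-/

set_option autoImplicit false

noncomputable section

open Matrix Module

namespace Fermat.Agent.OrdinaryAtP

variable {G k K : Type*} [Monoid G] [Field k] [Field K]

/-- The matrices of the family as rows of length four. -/
def rowsOf {R : Type*} [CommRing R] (r : G →* Matrix (Fin 2) (Fin 2) R) (s : Fin 2 × Fin 2 → G) :
    Matrix (Fin 2 × Fin 2) (Fin 2 × Fin 2) R := Matrix.of fun i ab => r (s i) ab.1 ab.2

/-- The transposed rows. -/
def rowsOf' {R : Type*} [CommRing R] (r : G →* Matrix (Fin 2) (Fin 2) R) (s : Fin 2 × Fin 2 → G) :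
    Matrix (Fin 2 × Fin 2) (Fin 2 × Fin 2) R := Matrix.of fun i ab => r (s i) ab.2 ab.1

theorem rowsOf_mul {R : Type*} [CommRing R] (r : G →* Matrix (Fin 2) (Fin 2) R)
    (s : Fin 2 × Fin 2 → G) :
    rowsOf r s * (rowsOf' r s)ᵀ = Matrix.of fun i j => (r (s i * s j)).trace := by
  ext i j
  simp only [rowsOf, rowsOf', Matrix.mul_apply, Matrix.transpose_apply, Matrix.of_apply, map_mul,
    Matrix.trace, Matrix.diag_apply, Fintype.sum_prod_type]

variable (r : G →* Matrix (Fin 2) (Fin 2) k) (r' : G →* Matrix (Fin 2) (Fin 2) K) (φ : k →+* K)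

/-- Traces determine invertibility of the matrix of rows. -/
theorem exists_rows (hspan : Submodule.span k (Set.range r) = ⊤)
    (htr : ∀ g, (r' g).trace = φ (r g).trace) :
    ∃ s : Fin 2 × Fin 2 → G, IsUnit (rowsOf r' s).det := by
  classical
  obtain ⟨f, hf, -, hl⟩ := Submodule.exists_fun_fin_finrank_span_eq k (Set.range r)
  have e : finrank k (Submodule.span k (Set.range r)) = 4 := by
    rw [hspan, finrank_top, Module.finrank_matrix]
    simp
  choose g hg using hf
  let e4 : Fin 2 × Fin 2 ≃ Fin (finrank k (Submodule.span k (Set.range r))) :=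
    finProdFinEquiv.trans (finCongr e.symm)
  refine ⟨g ∘ e4, ?_⟩
  have hl' : LinearIndependent k fun i => r ((g ∘ e4) i) := by
    rw [show (fun i => r ((g ∘ e4) i)) = f ∘ e4 from funext fun i => hg _]
    exact hl.comp e4 e4.injective
  have key : ∀ L : Matrix (Fin 2) (Fin 2) k ≃ₗ[k] (Fin 2 × Fin 2 → k),
      IsUnit (Matrix.of fun i => L (r ((g ∘ e4) i))).det := fun L =>
    (Matrix.isUnit_iff_isUnit_det _).mp (Matrix.linearIndependent_rows_iff_isUnit.mp
      (hl'.map' L.toLinearMap L.ker))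
  have h1 : IsUnit (rowsOf r (g ∘ e4)).det := key (LinearEquiv.curry k k (Fin 2) (Fin 2)).symm
  have h2 : IsUnit (rowsOf' r (g ∘ e4)).det :=
    key ((Matrix.transposeLinearEquiv (Fin 2) (Fin 2) k k).trans
      (LinearEquiv.curry k k (Fin 2) (Fin 2)).symm)
  have h3 : IsUnit (rowsOf r' (g ∘ e4) * (rowsOf' r' (g ∘ e4))ᵀ).det := by
    have : rowsOf r' (g ∘ e4) * (rowsOf' r' (g ∘ e4))ᵀ =
        φ.mapMatrix (rowsOf r (g ∘ e4) * (rowsOf' r (g ∘ e4))ᵀ) := by
      rw [rowsOf_mul, rowsOf_mul]
      ext i j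
      exact htr _
    rw [this, ← RingHom.map_det, Matrix.det_mul, Matrix.det_transpose]
    exact (h1.mul h2).map φ
  rw [Matrix.det_mul] at h3
  exact isUnit_of_mul_isUnit_left h3

/-- Every matrix is a combination of values. -/
theorem exists_combination {s : Fin 2 × Fin 2 → G} (hs : IsUnit (rowsOf r' s).det)
    (B : Matrix (Fin 2) (Fin 2) K) :
    ∃ c : Fin 2 × Fin 2 → K, B = ∑ i, c i • r' (s i) := by
  set b : Fin 2 × Fin 2 → K := fun ab => B ab.1 ab.2
  refine ⟨b ᵥ* (rowsOf r' s)⁻¹, ?_⟩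
  have h : (b ᵥ* (rowsOf r' s)⁻¹) ᵥ* rowsOf r' s = b := by
    rw [Matrix.vecMul_vecMul, Matrix.nonsing_inv_mul _ hs, Matrix.vecMul_one]
  ext a a'
  have := congrFun h (a, a')
  simp only [Matrix.vecMul, dotProduct, rowsOf, Matrix.of_apply, b] at this
  simp only [Matrix.sum_apply, Matrix.smul_apply, smul_eq_mul]
  exact this.symm

/-- The kernel is not larger. -/
theorem eq_one_of_trace (htr : ∀ g, (r' g).trace = φ (r g).trace) {s : Fin 2 × Fin 2 → G}
    (hs : IsUnit (rowsOf r' s).det) {g : G} (hg : r g = 1) : r' g = 1 := by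
  set v : Fin 2 × Fin 2 → K := fun ab => (r' g - 1) ab.2 ab.1
  have h : rowsOf r' s *ᵥ v = 0 := by
    funext i
    have e : (rowsOf r' s *ᵥ v) i = (r' (s i) * (r' g - 1)).trace := by
      simp only [Matrix.mulVec, dotProduct, rowsOf, Matrix.of_apply, v, Matrix.trace,
        Matrix.diag_apply, Matrix.mul_apply, Fintype.sum_prod_type]
    rw [e, mul_sub, mul_one, ← map_mul, Matrix.trace_sub, htr, htr, map_mul, hg, mul_one,
      sub_self, Pi.zero_apply]
  have h2 := congrArg (fun w => (rowsOf r' s)⁻¹ *ᵥ w) h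
  simp only [Matrix.mulVec_mulVec, Matrix.nonsing_inv_mul _ hs, Matrix.one_mulVec,
    Matrix.mulVec_zero] at h2
  ext a b
  exact sub_eq_zero.mp (congrFun h2 (b, a))

variable {R V : Type*} [CommRing R] [IsDomain R] [IsPrincipalIdealRing R] [AddCommGroup V]
  [Module R V] [Module.Free R V] [Module.Finite R V]

/-- A submodule contains a multiple of the space or is killed by a nonzero functional. -/
theorem exists_functional_or_smul (W : Submodule R V) :
    (∃ φ : V →ₗ[R] R, φ ≠ 0 ∧ ∀ w ∈ W, φ w = 0) ∨ ∃ c : R, c ≠ 0 ∧ ∀ v, c • v ∈ W := by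
  classical
  by_cases h : ∀ x : V ⧸ W, ∃ a : R, a ≠ 0 ∧ a • x = 0
  · right
    let b := Module.finBasis R V
    choose a ha hb using fun i => h (Submodule.Quotient.mk (b i))
    refine ⟨∏ i, a i, Finset.prod_ne_zero_iff.mpr fun i _ => ha i, fun v => ?_⟩
    rw [← b.sum_repr v, Finset.smul_sum]
    refine sum_mem fun i _ => ?_
    rw [smul_comm]
    refine W.smul_mem _ ?_
    rw [← Finset.mul_prod_erase _ _ (Finset.mem_univ i), mul_comm, mul_smul]
    refine W.smul_mem _ ?_
    rw [← Submodule.Quotient.mk_eq_zero W, Submodule.Quotient.mk_smul]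
    exact hb i
  · left
    push Not at h
    obtain ⟨x, hx⟩ := h
    set Q := (V ⧸ W) ⧸ Submodule.torsion R (V ⧸ W)
    have : Module.Free R Q := Module.free_of_finite_type_torsion_free'
    have hne : Submodule.Quotient.mk x ≠ (0 : Q) := fun h0 => by
      rw [Submodule.Quotient.mk_eq_zero, Submodule.mem_torsion_iff] at h0
      obtain ⟨⟨a, ha⟩, hax⟩ := h0
      exact hx a (mem_nonZeroDivisors_iff_ne_zero.mp ha) hax
    obtain ⟨ψ, hψ⟩ : ∃ ψ : Q →ₗ[R] R, ψ (Submodule.Quotient.mk x) ≠ 0 := by
      by_contra! hall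
      exact hne ((Module.forall_dual_apply_eq_zero_iff R _).mp hall)
    obtain ⟨v, rfl⟩ := Submodule.Quotient.mk_surjective W x
    refine ⟨ψ.comp ((Submodule.mkQ _).comp W.mkQ), fun h0 => hψ (LinearMap.congr_fun h0 v),
      fun w hw => ?_⟩
    simp [(Submodule.Quotient.mk_eq_zero W).mpr hw]

end Fermat.Agent.OrdinaryAtP

end
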