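import Fermat.Agent.OrdinaryAtP.Statement
import Fermat.Agent.OrdinaryAtP.PlaneSpan
import Fermat.Agent.GaloisReps.Results
import Fermat.Agent.CFT.Flat.Tres
import Fermat.Agent.FiniteFlat.GalOrderOps
import Fermat.Agent.OrdinaryAtP.Flat.ApproxRoot
import Fermat.Agent.OrdinaryAtP.Flat.KMRoot
import Fermat.Agent.OrdinaryAtP.Flat.Moved
import Fermat.Agent.OrdinaryAtP.Flat.NoQuotient
import Fermat.Agent.OrdinaryAtP.Flat.Principal
import Fermat.Agent.OrdinaryAtP.Flat.Scalar
import Fermat.Agent.OrdinaryAtP.Flat.Threshold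
import Fermat.Agent.Semistable.Torsion
import Fermat.Agent.TwoAdic.Module.Inputs
import Mathlib.Algebra.Module.CharacterModule

/-!
# The line at `2` for a tres ramifiee residual representation

If the vectors moved by inertia spanned a multiple of the eigen-lattice, a Galois stable group of
moved `2`-torsion classes would carry a nonzero quotient of the residual plane.  At odd level its
Galois order forbids inertia at `2` to act through a tres ramifiee character; at twice an odd
level the same holds of its two push forwards, so it consists of flat new classes, which inertia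
fixes.
-/

set_option autoImplicit false
set_option maxHeartbeats 1600000

noncomputable section

open Module Matrix ModularCurve
open IsLocalRing (residue maximalIdeal ResidueField)
open Fermat.Agent.Arith Fermat.Agent.FiniteFlat
open Fermat.Agent.GaloisReps (AbsGal FullHecke HeckeGaloisModel)
open scoped Pointwise

namespace Fermat.Agent.OrdinaryAtP

/-- An element which is not a multiple of `m` is seen by a homomorphism to `ℤ/m`. -/
theorem exists_hom_zmod {R : Type} [CommRing R] (m : ℕ) [NeZero m] {x : R}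
    (hx : ¬ (m : R) ∣ x) : ∃ χ : R →+ ZMod m, χ x ≠ 0 := by
  set Q := R ⧸ (Ideal.span {(m : R)}).toAddSubgroup
  set a : AddCircle (1 : ℚ) := ((1 / m : ℚ) : AddCircle (1 : ℚ))
  obtain ⟨c, hc⟩ := CharacterModule.exists_character_apply_ne_zero_of_ne_zero
    (A := Q) (a := (QuotientAddGroup.mk x : Q)) fun h =>
      hx (Ideal.mem_span_singleton.mp ((QuotientAddGroup.eq_zero_iff x).mp h))
  have hm : (m : ℚ) ≠ 0 := Nat.cast_ne_zero.mpr (NeZero.ne m)
  have ha : (m : ℤ) • a = 0 := by
    rw [← AddCircle.coe_zsmul, zsmul_eq_mul, Int.cast_natCast, mul_one_div, div_self hm]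
    exact AddCircle.coe_period 1
  let e : ZMod m →+ AddCircle (1 : ℚ) :=
    ZMod.lift m ⟨zmultiplesHom _ a, ha⟩
  have he : ∀ i : ℤ, e (i : ZMod m) = i • a := fun i => ZMod.lift_coe _ _ _
  have hinj : Function.Injective e := by
    refine (injective_iff_map_eq_zero _).mpr fun y hy => ?_
    obtain ⟨i, rfl⟩ := ZMod.intCast_surjective y
    rw [he, ← AddCircle.coe_zsmul, AddCircle.coe_eq_zero_iff] at hy
    obtain ⟨k, hk⟩ := hy
    rw [ZMod.intCast_zmod_eq_zero_iff_dvd]
    refine ⟨k, ?_⟩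
    rw [zsmul_eq_mul, zsmul_eq_mul, mul_one, mul_one_div, eq_div_iff hm] at hk
    rw [mul_comm]
    exact_mod_cast hk.symm
  have hrange : ∀ q : Q, ∃ y : ZMod m, e y = c q := by
    intro q
    obtain ⟨r, rfl⟩ := QuotientAddGroup.mk_surjective q
    have h0 : (m : ℕ) • (c (QuotientAddGroup.mk r : Q) : AddCircle (1 : ℚ)) = 0 := by
      rw [← map_nsmul, ← QuotientAddGroup.mk_nsmul,
        (QuotientAddGroup.eq_zero_iff _).mpr (Ideal.mem_span_singleton.mpr
          ⟨r, nsmul_eq_mul m r⟩), map_zero]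
    obtain ⟨t, ht⟩ := QuotientAddGroup.mk_surjective (c (QuotientAddGroup.mk r : Q))
    rw [← ht] at h0 ⊢
    change ((m • t : ℚ) : AddCircle (1 : ℚ)) = 0 at h0
    obtain ⟨k, hk⟩ := (AddCircle.coe_eq_zero_iff 1).mp h0
    refine ⟨(k : ZMod m), ?_⟩
    rw [he, ← AddCircle.coe_zsmul]
    refine congrArg _ ?_
    rw [zsmul_eq_mul, nsmul_eq_mul, mul_one] at hk
    rw [zsmul_eq_mul, mul_one_div, div_eq_iff hm, hk, mul_comm]
  choose χ hχ using hrange
  refine ⟨AddMonoidHom.mk' (fun r => χ (QuotientAddGroup.mk r)) fun r r' => hinj ?_, fun h => ?_⟩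
  · rw [map_add, hχ, hχ, hχ, QuotientAddGroup.mk_add, map_add]
  · refine hc ?_
    rw [← hχ]
    exact (congrArg e h).trans (map_zero e)

theorem hom_zmod_padic {R : Type} [CommRing R] {p : ℕ} [Fact p.Prime] {n : ℕ} (ι : ℤ_[p] →+* R)
    (χ : R →+ ZMod (p ^ n)) (a : ℤ_[p]) (r : R) :
    χ (ι a * r) = PadicInt.toZModPow n a * χ r := by
  have : NeZero (p ^ n) := ⟨pow_ne_zero _ (Fact.out : p.Prime).ne_zero⟩
  set k := (PadicInt.toZModPow n a).val
  obtain ⟨b, hb⟩ : ∃ b, a - (k : ℤ_[p]) = (p : ℤ_[p]) ^ n * b := by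
    refine Ideal.mem_span_singleton.mp ?_
    rw [← PadicInt.ker_toZModPow, RingHom.mem_ker, map_sub, map_natCast, ZMod.natCast_zmod_val,
      sub_self]
  have e : ι a * r = k • r + (p ^ n) • (ι b * r) := by
    rw [eq_add_of_sub_eq' hb, map_add, map_mul, map_pow, map_natCast, map_natCast, nsmul_eq_mul,
      nsmul_eq_mul]
    push_cast
    ring
  rw [e, map_add, map_nsmul, map_nsmul, nsmul_eq_mul, nsmul_eq_mul, ZMod.natCast_self, zero_mul,
    add_zero, ZMod.natCast_zmod_val]

/-- The torsion class with the coordinates of `χ` on a vector of the lattice. -/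
def toClass {N p : ℕ} [NeZero N] [Fact p.Prime] (n : ℕ) {R : Type} [CommRing R]
    (χ : R →+ ZMod (p ^ n)) :
    (Fin (2 * Gamma0.genus N) → R) →+ JZero N :=
  (GaloisReps.JTors N p n).subtype.comp
    (((GaloisReps.torsionIso N p (GaloisReps.conjProperty N)).psi n).symm.toAddMonoidHom.comp
      (AddMonoidHom.mk' (fun v k => χ (v k)) fun _ _ => funext fun _ => map_add χ _ _))

variable {N p : ℕ} [NeZero N] [Fact p.Prime] {R : Type} [CommRing R]

theorem toClass_mem (n : ℕ) (χ : R →+ ZMod (p ^ n)) (v : Fin (2 * Gamma0.genus N) → R) :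
    p ^ n • toClass n χ v = 0 := by
  have h := ((GaloisReps.torsionIso N p (GaloisReps.conjProperty N)).psi n).symm
    (fun k => χ (v k)) |>.2
  rw [AlgebraicCurve.Pic0.mem_torsion, natCast_zsmul] at h
  exact h

theorem toClass_gal (hES : GaloisReps.CongruenceProperty N p) (n : ℕ) (χ : R →+ ZMod (p ^ n))
    (ι : ℤ_[p] →+* R) (σ : AbsGal) (v : Fin (GaloisReps.modelOfCongruence hES).d → R) :
    toClass n χ ((((GaloisReps.modelOfCongruence hES).gal σ).map ι) *ᵥ v) = σ • toClass n χ v := by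
  set E := GaloisReps.torsionIso N p (GaloisReps.conjProperty N)
  have h : (fun k => χ ((((GaloisReps.modelOfCongruence hES).gal σ).map ι *ᵥ v) k)) =
      E.galLvl n σ *ᵥ fun k => χ (v k) := by
    rw [← E.map_gal]
    funext k
    simp only [Matrix.mulVec, dotProduct, Matrix.map_apply, map_sum]
    exact Finset.sum_congr rfl fun j _ => hom_zmod_padic ι χ _ _
  have h2 : (E.psi n).symm (fun k => χ ((((GaloisReps.modelOfCongruence hES).gal σ).map ι *ᵥ v) k)) =
      GaloisReps.galTors n σ ((E.psi n).symm fun k => χ (v k)) := by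
    rw [AddEquiv.symm_apply_eq, ← E.galLvl_mulVec, AddEquiv.apply_symm_apply]
    exact h
  exact congrArg Subtype.val h2

/-- Inertia fixes the classes with vanishing push forwards and a flat Kummer function. -/
theorem smul_eq_of_flat_two {A : ValuationSubring QBar} (hA : A.LiesOverPrime 2) {M : ℕ} [NeZero M]
    (hM : ¬ 2 ∣ M) {y : JZero (2 * M)} (hy : y ∈ flatCls A 2 M hM 2)
    (h1 : pushUp 2 M y = 0) (h2 : pushW 2 M hM y = 0) {τ : GQ}
    (hτ : τ ∈ A.inertiaSubgroupIn ℚ) : τ • y = y := by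
  have hMA := Semistable.natCast_level_ne_zero hA hM
  have := Arith.residueField_charP hA Nat.prime_two
  have := Arith.residueField_isAlgClosed A
  have := Semistable.isFunctionField_KM (A := A) (M := M) hMA
  have h := Semistable.setup hA hM
  obtain ⟨f, rfl, hf⟩ := (mem_flatCls A 2 M hM).mp hy
  have hlam : A.valuation ((2 : QBar) ^ (2 - 1)) = A.valuation ((2 : ℕ) : QBar) := by
    rw [show 2 - 1 = 1 from rfl, pow_one, Nat.cast_ofNat]
  obtain ⟨n, φ, hφ, hsm⟩ := exists_threshold_of_approx h (fun z => mem_KM_of_pow_mem hMA (z := z))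
    hlam (ord_eq_mul_divQuot f) hf le_rfl
    (exists_approxRoot hA hf (isNormPow_of_push hM f h1 h2)
      (pow_ne_zero 2 (two_ne_zero : (2 : QBar) ≠ 0)))
  have hb : ∃ hu : τ (2 : QBar) / 2 ∈ A, residue A ⟨_, hu⟩ = ((1 : ℕ) : Semistable.Res A) := by
    have e : τ (2 : QBar) / 2 = 1 := by rw [map_ofNat, div_self two_ne_zero]
    refine ⟨e ▸ one_mem A, ?_⟩
    rw [Nat.cast_one, ← map_one (residue A)]
    exact congrArg _ (Subtype.ext e)
  rw [galois_kclass_eq_nsmul h hlam (fun g hg hg' _ _ hφ' _ hπ hs =>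
    principal_of_small h g hg hg' hlam hφ' hπ hs) f hf hφ hsm hτ hb, one_smul]

variable {O : Type} [CommRing O] [IsLocalRing O]

/-- A tres ramifiee residual representation has an integral square root of odd valuation. -/
theorem exists_sqrt_odd (S : TwoAdic.Deform.Setting O) :
    ∃ (δ : ℤ) (j m : ℕ) (s : QBar), ¬ 2 ∣ m ∧ δ.natAbs = 2 ^ (2 * j + 1) * m ∧
      s ^ 2 = (δ : QBar) ∧ ∀ g : GQ, g s = s ↔ g S.sqrtDisc = S.sqrtDisc := by
  have hd0 : S.disc ≠ 0 := fun h => by
    have := S.disc_odd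
    simp [h] at this
  set δ : ℤ := S.disc.num * S.disc.den with hδ
  have hden : (S.disc.den : QBar) ≠ 0 := Nat.cast_ne_zero.mpr S.disc.den_ne_zero
  have hδ0 : δ ≠ 0 := mul_ne_zero (Rat.num_ne_zero.mpr hd0) (by exact_mod_cast S.disc.den_ne_zero)
  have hodd : Odd (padicValInt 2 δ) := by
    have h1 := S.disc_odd
    rw [padicValRat_def] at h1
    rw [hδ, padicValInt.mul (Rat.num_ne_zero.mpr hd0) (by exact_mod_cast S.disc.den_ne_zero)]
    simp only [padicValInt.of_nat]
    rw [Int.odd_sub] at h1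
    rw [Nat.odd_add]
    simpa [Int.odd_coe_nat, Int.even_coe_nat] using h1
  obtain ⟨j, hj⟩ := hodd
  have hn0 : δ.natAbs ≠ 0 := Int.natAbs_ne_zero.mpr hδ0
  have hdvd : 2 ^ (2 * j + 1) ∣ δ.natAbs := by
    rw [← hj]; exact pow_padicValNat_dvd
  refine ⟨δ, j, δ.natAbs / 2 ^ (2 * j + 1), S.sqrtDisc * S.disc.den, ?_,
    (Nat.mul_div_cancel' hdvd).symm, ?_, fun g => ?_⟩
  · intro h
    obtain ⟨k, hk⟩ := h
    have h2 : 2 ^ (2 * j + 2) ∣ δ.natAbs := ⟨k, by
      rw [← Nat.mul_div_cancel' hdvd, hk, pow_succ 2 (2 * j + 1), mul_assoc]⟩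
    have := (padicValNat_dvd_iff_le (p := 2) hn0).mp h2
    rw [show padicValNat 2 δ.natAbs = padicValInt 2 δ from rfl, hj] at this
    omega
  · rw [mul_pow, S.sqrtDisc_sq, eq_ratCast, hδ, Rat.cast_def]
    push_cast
    field_simp
  · rw [map_mul, map_natCast, mul_left_inj' hden]

theorem span_rb_eq_top (S : TwoAdic.Deform.Setting O) :
    Submodule.span (ResidueField O) (Set.range S.W.rb) = ⊤ := by
  set T := Submodule.span (ResidueField O) (Set.range S.W.rb)
  have hmul : ∀ x ∈ T, ∀ g, x * S.W.rb g ∈ T := fun x hx g => by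
    refine Submodule.span_induction (p := fun x _ => x * S.W.rb g ∈ T) ?_
      (by rw [zero_mul]; exact zero_mem _) (fun x y _ _ hx hy => by rw [add_mul]; exact add_mem hx hy)
      (fun a x _ hx => by rw [smul_mul_assoc]; exact T.smul_mem a hx) hx
    rintro _ ⟨g', rfl⟩
    rw [← map_mul]
    exact Submodule.subset_span ⟨_, rfl⟩
  have hC : ∀ c : Deform.Gal →₀ O, (c.sum fun σ o => o • S.W.rb σ) ∈ T := fun c =>
    Submodule.sum_mem _ fun σ _ => Submodule.smul_of_tower_mem T _
      (Submodule.subset_span ⟨σ, rfl⟩)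
  have h00 : Matrix.single 0 0 1 ∈ T := S.W.hX ▸ hC _
  have h10 : Matrix.single 1 0 1 ∈ T := S.W.hY ▸ hC _
  have h01 : Matrix.single 0 1 1 ∈ T := by
    have := T.sub_mem (Submodule.subset_span ⟨S.σ2, rfl⟩) (Submodule.subset_span ⟨1, map_one _⟩)
    rw [S.rb_σ2] at this
    convert this using 1
    ext a a'; fin_cases a <;> fin_cases a' <;> simp [TwoAdic.Deform.upperU]
  have h11 : Matrix.single 1 1 1 ∈ T := by
    have := T.sub_mem (Submodule.subset_span ⟨1, map_one _⟩) h00
    convert this using 1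
    ext a a'; fin_cases a <;> fin_cases a' <;> simp
  refine eq_top_iff.mpr fun x _ => ?_
  rw [Matrix.matrix_eq_sum_single x]
  refine sum_mem fun a _ => sum_mem fun a' _ => ?_
  rw [← mul_one (x a a'), ← smul_eq_mul, ← Matrix.smul_single]
  refine T.smul_mem _ ?_
  fin_cases a <;> fin_cases a' <;> assumption

/-- Inertia at `2` fixes a Galois stable group of `2`-torsion classes of odd level fixed by the
kernel of the residual representation. -/
theorem inertia_trivial_of_order (S : TwoAdic.Deform.Setting O) {N : ℕ} [NeZero N]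
    (hord : Mazur.Eisenstein.OrderProperty N) (hN : ¬ 2 ∣ N) (G : AddSubgroup (JZero N))
    (hGs : ∀ (g : GQ), ∀ y ∈ G, g • y ∈ G) (hG2 : ∀ y ∈ G, 2 • y = 0)
    (hker : ∀ g, S.W.rb g = 1 → ∀ y ∈ G, g • y = y) :
    ∀ t ∈ S.P2.inertiaSubgroupIn ℚ, ∀ y ∈ G, t • y = y := by
  classical
  obtain ⟨X, _, _, _, i, Ord, hi, hiσ, hsurj, -⟩ := hord 2 Nat.prime_two hN S.P2 S.P2_over 1
  let H : AddSubgroup X := G.comap i
  let : SMul GQ H := ⟨fun g x => ⟨g • (x : X), by
    show i (g • (x : X)) ∈ G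
    rw [hiσ]
    exact hGs g _ x.2⟩⟩
  let : DistribMulAction GQ H :=
    Function.Injective.distribMulAction H.subtype Subtype.val_injective fun _ _ => rfl
  let OrdH : GalOrder 2 H := Ord.restrict H.subtype Subtype.val_injective fun _ _ => rfl
  obtain ⟨δ, j, m, sq, hm2, hδ, hsq, hiff⟩ := exists_sqrt_odd S
  obtain ⟨g₀, hg₀⟩ := exists_smul_eq (CFT.Local.padicPlace_liesOverPrime 2) S.P2_over Nat.prime_two
  have hconjI : ∀ g, g ∈ CFT.Flat.inG 2 ↔ g₀ * g * g₀⁻¹ ∈ S.P2.inertiaSubgroupIn ℚ := fun g => by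
    rw [← hg₀, mem_inertia_smul_iff]
  intro t ht y hy
  obtain ⟨x₀, hx₀⟩ := hsurj y (by rw [pow_one]; exact hG2 y hy)
  let x : H := ⟨x₀, show i x₀ ∈ G from hx₀ ▸ hy⟩
  suffices hx : t • x = x by
    rw [← hx₀, ← hiσ]
    exact congrArg i (congrArg Subtype.val hx)
  have h1 := CFT.Flat.smul_eq_of_sqrt_odd (M := H) OrdH
    (fun z => Subtype.ext (hi (by
      rw [AddSubgroup.coe_nsmul, map_nsmul, AddSubgroup.coe_zero, map_zero]
      exact hG2 _ z.2)))
    hm2 hδ (s := g₀⁻¹ sq) (by rw [← map_pow, hsq, map_intCast]) ?_ (g₀⁻¹ * t * g₀) ?_ (g₀⁻¹ • x)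
  · rwa [← mul_smul, mul_assoc, mul_inv_cancel, mul_one, mul_smul, smul_left_cancel_iff] at h1
  · intro g hg hgs z
    have h2' : (g₀ * g * g₀⁻¹) sq = sq := by
      rw [AlgEquiv.mul_apply, AlgEquiv.mul_apply, hgs, ← AlgEquiv.mul_apply, mul_inv_cancel,
        AlgEquiv.one_apply]
    have h3 : (g₀ * g * g₀⁻¹) • (g₀ • z) = g₀ • z := Subtype.ext (hi ((hiσ _ _).trans
      (hker _ ((S.rb_inertia2_iff _ ((hconjI g).mp hg)).mpr ((hiff _).mp h2')) _ (g₀ • z).2)))
    rwa [← mul_smul, inv_mul_cancel_right, mul_smul, smul_left_cancel_iff] at h3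
  · refine (hconjI _).mpr ?_
    rwa [mul_assoc, mul_assoc, mul_inv_cancel, mul_one, ← mul_assoc, mul_inv_cancel, one_mul]

section Plane

variable [IsDomain R] [IsDiscreteValuationRing R] {V : Type*} [AddCommGroup V] [Module R V]
  (S : TwoAdic.Deform.Setting O) (act : GQ →* Module.End R V) (b : Basis (Fin 2) R V)
  (φ : ResidueField O →+* ResidueField R)
  (htr : ∀ g, residue R ((LinearMap.toMatrix b b (act g)).trace) = φ (S.W.rb g).trace)
  {J : Type*} [AddCommGroup J] [DistribMulAction GQ J] (h : V →+ J)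
  (hhm : ∀ r ∈ maximalIdeal R, ∀ v, h (r • v) = 0) (hhσ : ∀ σ v, h (act σ v) = σ • h v)
include htr hhm hhσ

/-- The kernel of the residual representation fixes the image of the plane. -/
theorem smul_hom_eq {g : GQ} (hg : S.W.rb g = 1) (v : V) : g • h v = h v := by
  classical
  let rbar : GQ →* Matrix (Fin 2) (Fin 2) (ResidueField R) :=
    ((residue R).mapMatrix.toMonoidHom).comp
      ((LinearMap.toMatrixAlgEquiv b).toMulEquiv.toMonoidHom.comp act)
  have hrtr : ∀ g, (rbar g).trace = φ (S.W.rb g).trace := fun g => by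
    rw [← htr g]
    exact (AddMonoidHom.map_trace (residue R).toAddMonoidHom _).symm
  have hspan := span_rb_eq_top S
  obtain ⟨s, hs⟩ := exists_rows S.W.rb rbar φ hspan hrtr
  -- vectors congruent modulo the maximal ideal
  have hres : ∀ {v w : V}, (∀ a, residue R (b.repr v a) = residue R (b.repr w a)) → h v = h w := by
    intro v w hvw
    rw [← sub_eq_zero, ← map_sub, ← b.sum_repr (v - w), map_sum]
    refine Finset.sum_eq_zero fun a _ => hhm _ ?_ _
    rw [← IsLocalRing.residue_eq_zero_iff, map_sub, Finsupp.sub_apply, map_sub, hvw a, sub_self]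
  have hrepr : ∀ g v a, residue R (b.repr (act g v) a) =
      (rbar g *ᵥ fun a' => residue R (b.repr v a')) a := fun g v a => by
    have e : b.repr (act g v) a = (LinearMap.toMatrix b b (act g) *ᵥ b.repr v) a :=
      (congrFun (LinearMap.toMatrix_mulVec_repr b b (act g) v) a).symm
    rw [e, RingHom.map_mulVec]
    rfl
  rw [← hhσ]
  refine hres fun a => ?_
  rw [hrepr, eq_one_of_trace S.W.rb rbar φ hrtr hs hg, one_mulVec]

/-- An equivariant image of the plane fixed by inertia at `2` vanishes. -/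
theorem hom_eq_zero (htriv : ∀ t ∈ S.P2.inertiaSubgroupIn ℚ, ∀ v, t • h v = h v) : h = 0 := by
  classical
  let rbar : GQ →* Matrix (Fin 2) (Fin 2) (ResidueField R) :=
    ((residue R).mapMatrix.toMonoidHom).comp
      ((LinearMap.toMatrixAlgEquiv b).toMulEquiv.toMonoidHom.comp act)
  have hrtr : ∀ g, (rbar g).trace = φ (S.W.rb g).trace := fun g => by
    rw [← htr g]
    exact (AddMonoidHom.map_trace (residue R).toAddMonoidHom _).symm
  have hspan := span_rb_eq_top S
  obtain ⟨s, hs⟩ := exists_rows S.W.rb rbar φ hspan hrtr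
  -- vectors congruent modulo the maximal ideal
  have hres : ∀ {v w : V}, (∀ a, residue R (b.repr v a) = residue R (b.repr w a)) → h v = h w := by
    intro v w hvw
    rw [← sub_eq_zero, ← map_sub, ← b.sum_repr (v - w), map_sum]
    refine Finset.sum_eq_zero fun a _ => hhm _ ?_ _
    rw [← IsLocalRing.residue_eq_zero_iff, map_sub, Finsupp.sub_apply, map_sub, hvw a, sub_self]
  have hrepr : ∀ g v a, residue R (b.repr (act g v) a) =
      (rbar g *ᵥ fun a' => residue R (b.repr v a')) a := fun g v a => by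
    have e : b.repr (act g v) a = (LinearMap.toMatrix b b (act g) *ᵥ b.repr v) a :=
      (congrFun (LinearMap.toMatrix_mulVec_repr b b (act g) v) a).symm
    rw [e, RingHom.map_mulVec]
    rfl
  -- so the conjugates of `σ2 - 1` die, hence everything
  set X := rbar S.σ2 - 1
  have hX : X ≠ 0 := by
    intro hX
    have hall' : ∀ g, (S.W.rb (g * S.σ2)).trace = (S.W.rb g).trace := fun g => φ.injective (by
      rw [← hrtr, ← hrtr, map_mul, sub_eq_zero.mp hX, mul_one])
    obtain ⟨t, ht⟩ := exists_rows S.W.rb S.W.rb (RingHom.id _) hspan fun _ => rfl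
    exact (show (TwoAdic.Deform.upperU (ResidueField O)) ≠ 1 from fun hu => by
      simpa [TwoAdic.Deform.upperU] using congrFun (congrFun hu 0) 1) (by
      rw [← S.rb_σ2]
      have hz : rowsOf S.W.rb t *ᵥ (fun ab => (S.W.rb S.σ2 - 1) ab.2 ab.1) = 0 := by
        funext i
        have e' : (rowsOf S.W.rb t *ᵥ (fun ab => (S.W.rb S.σ2 - 1) ab.2 ab.1)) i =
            (S.W.rb (t i) * (S.W.rb S.σ2 - 1)).trace := by
          simp only [Matrix.mulVec, dotProduct, rowsOf, Matrix.of_apply, Matrix.trace,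
            Matrix.diag_apply, Matrix.mul_apply, Fintype.sum_prod_type]
        rw [e', mul_sub, mul_one, ← map_mul, Matrix.trace_sub, hall', sub_self, Pi.zero_apply]
      have h3 := congrArg (fun w => (rowsOf S.W.rb t)⁻¹ *ᵥ w) hz
      simp only [Matrix.mulVec_mulVec, Matrix.nonsing_inv_mul _ ht, Matrix.one_mulVec,
        Matrix.mulVec_zero] at h3
      ext a a'
      exact sub_eq_zero.mp (congrFun h3 (a', a)))
  choose lift hlift using (IsLocalRing.residue_surjective (R := R))
  let hbar : (Fin 2 → ResidueField R) →+ J :=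
    AddMonoidHom.mk' (fun u => h (∑ a, lift (u a) • b a)) fun u u' => by
      rw [← map_add]
      refine hres fun a => ?_
      fin_cases a <;> simp [hlift]
  have hbar_eq : ∀ v, hbar (fun a => residue R (b.repr v a)) = h v := fun v => by
    refine hres fun a => ?_
    fin_cases a <;> simp [hlift]
  have hbarσ : ∀ g u, hbar (rbar g *ᵥ u) = g • hbar u := fun g u => by
    show _ = g • h (∑ a, lift (u a) • b a)
    rw [← hhσ, ← hbar_eq]
    congr 1
    funext a
    rw [hrepr]
    congr 1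
    funext a'
    fin_cases a' <;> simp [hlift]
  have hbart : ∀ g u, hbar (rbar g *ᵥ (X *ᵥ u)) = 0 := by
    intro g u
    have e : S.σ2 • hbar u = hbar u := htriv _ S.σ2_mem _
    rw [hbarσ, show X *ᵥ u = rbar S.σ2 *ᵥ u - u by rw [Matrix.sub_mulVec, one_mulVec], map_sub,
      hbarσ, e, sub_self, smul_zero]
  refine AddMonoidHom.ext fun v => ?_
  rw [← hbar_eq, AddMonoidHom.zero_apply]
  set u : Fin 2 → ResidueField R := fun a => residue R (b.repr v a)
  obtain ⟨a, a', ha⟩ : ∃ a a', X a a' ≠ 0 := by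
    by_contra! h0
    exact hX (Matrix.ext h0)
  set B : Matrix (Fin 2) (Fin 2) (ResidueField R) :=
    Matrix.of fun r t => if t = a then u r * (X a a')⁻¹ else 0
  obtain ⟨cf, hcf⟩ := exists_combination rbar hs B
  have hu : u = B *ᵥ (X *ᵥ Pi.single a' 1) := by
    funext r
    rw [Matrix.mulVec_single_one]
    simp [B, Matrix.mulVec, dotProduct, ha]
  rw [hu, hcf, Matrix.sum_mulVec, map_sum]
  refine Finset.sum_eq_zero fun t _ => ?_
  rw [Matrix.smul_mulVec, ← Matrix.mulVec_smul, ← Matrix.mulVec_smul]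
  exact hbart _ _

end Plane

/-- An equivariant image of the plane in the moved `2`-torsion vanishes at levels not divisible
by `4`. -/
theorem hom_moved_eq_zero [IsDomain R] [IsDiscreteValuationRing R] {V : Type*} [AddCommGroup V]
    [Module R V] (S : TwoAdic.Deform.Setting O) (act : GQ →* Module.End R V)
    (b : Basis (Fin 2) R V) (φ : ResidueField O →+* ResidueField R)
    (htr : ∀ g, residue R ((LinearMap.toMatrix b b (act g)).trace) = φ (S.W.rb g).trace)
    {N : ℕ} [NeZero N] (h4 : ¬ 4 ∣ N)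
    (hord : ∀ (M : ℕ) [NeZero M], M ∣ N → ¬ 2 ∣ M → Mazur.Eisenstein.OrderProperty M)
    (h : V →+ JZero N) (hhm : ∀ r ∈ maximalIdeal R, ∀ v, h (r • v) = 0)
    (hhσ : ∀ σ v, h (act σ v) = σ • h v) (hh2 : ∀ v, 2 • h v = 0)
    (hmv : ∀ v, h v ∈ movedGroup S.P2 N 2) : h = 0 := by
  -- any image at an odd level vanishes
  have hodd : ∀ (N' : ℕ) [NeZero N'], N' ∣ N → ¬ 2 ∣ N' → ∀ h' : V →+ JZero N',
      (∀ r ∈ maximalIdeal R, ∀ v, h' (r • v) = 0) → (∀ σ v, h' (act σ v) = σ • h' v) →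
      (∀ v, 2 • h' v = 0) → h' = 0 := by
    intro N' _ hdvd hN' h' hm' hσ' h2'
    refine hom_eq_zero S act b φ htr h' hm' hσ' fun t ht v =>
      inertia_trivial_of_order S (hord N' hdvd hN') hN' h'.range ?_ ?_ ?_ t ht _ ⟨v, rfl⟩
    · rintro g _ ⟨w, rfl⟩
      exact ⟨act g w, hσ' g w⟩
    · rintro _ ⟨w, rfl⟩
      exact h2' w
    · rintro g hg _ ⟨w, rfl⟩
      exact smul_hom_eq S act b φ htr h' hm' hσ' hg w
  by_cases hN : 2 ∣ N
  · obtain ⟨M, rfl⟩ := hN
    have hM : ¬ 2 ∣ M := fun hd => h4 (mul_dvd_mul_left 2 hd)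
    have : NeZero M := ⟨fun h0 => hM (h0 ▸ dvd_zero 2)⟩
    have hpush : ∀ F : JZero (2 * M) →+ JZero M, (∀ (σ : GQ) x, F (σ • x) = σ • F x) →
        ∀ v, F (h v) = 0 := fun F hF v => DFunLike.congr_fun (hodd M (Dvd.intro_left 2 rfl) hM
          (F.comp h) (fun r hr w => by rw [AddMonoidHom.comp_apply, hhm r hr, map_zero])
          (fun σ w => by rw [AddMonoidHom.comp_apply, AddMonoidHom.comp_apply, hhσ, hF])
          fun w => by rw [AddMonoidHom.comp_apply, ← map_nsmul, hh2, map_zero]) v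
    have := Arith.residueField_charP S.P2_over Nat.prime_two
    refine hom_eq_zero S act b φ htr h hhm hhσ fun t ht v => ?_
    have hflat : h v ∈ flatCls S.P2 2 M hM 2 :=
      exists_flat_of_moved S.P2_over (h v) (hmv v) (hh2 v)
    exact smul_eq_of_flat_two S.P2_over hM hflat (hpush _ pushUp_galois v)
      (hpush _ (pushW_galois hM) v) ht
  · exact hodd N dvd_rfl hN h hhm hhσ hh2

variable [IsDomain R] [IsDiscreteValuationRing R] [CharZero R]

/-- The moved classes cannot span a multiple of the eigen-lattice. -/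
theorem not_smul_mem_movedSpan {N : ℕ} [NeZero N] (hES : GaloisReps.CongruenceProperty N 2)
    (S : TwoAdic.Deform.Setting O) (h4 : ¬ 4 ∣ N)
    (hord : ∀ (M : ℕ) [NeZero M], M ∣ N → ¬ 2 ∣ M → Mazur.Eisenstein.OrderProperty M)
    (h2 : (2 : R) ∈ maximalIdeal R) (ι : ℤ_[2] →+* R) (θ' : FullHecke N →+* R)
    (φ : ResidueField O →+* ResidueField R)
    (htr : ∀ σ : AbsGal, residue R
      (((GaloisReps.modelOfCongruence hES).eigenMatrix ι θ' σ).trace) = φ (S.W.rb σ).trace)
    {c : R} (hc : c ≠ 0) :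
    ∃ v, c • v ∉ Submodule.span R {y | ∃ τ ∈ S.P2.inertiaSubgroupIn ℚ, ∃ w,
      (GaloisReps.modelOfCongruence hES).eigenAction ι θ' τ w - w = y} := by
  classical
  by_contra! hall
  set D := GaloisReps.modelOfCongruence hES with hD
  set V := GaloisReps.eigenspace D.hecke θ' with hV
  set act := D.eigenAction ι θ' with hact
  set b := D.eigenBasis θ' with hb
  -- the classes of the vectors
  set v₀ : V := c • b 0
  obtain ⟨k, hk⟩ : ∃ k, (v₀ : Fin D.d → R) k ≠ 0 := by
    by_contra! h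
    exact smul_ne_zero hc (b.ne_zero 0) (Subtype.ext (funext h))
  obtain ⟨n, hn⟩ : ∃ n : ℕ, ¬ ((2 : ℕ) : R) ^ n ∣ (v₀ : Fin D.d → R) k := by
    by_contra! h
    exact hk (HeckeGaloisModel.eq_zero_of_forall_pow_dvd (by exact_mod_cast h2) h)
  obtain ⟨χ, hχ⟩ := exists_hom_zmod (2 ^ n) (x := (v₀ : Fin D.d → R) k) (by exact_mod_cast hn)
  let f : V →+ JZero N := (toClass n χ).comp V.subtype.toAddMonoidHom
  have hfσ : ∀ σ v, f (act σ v) = σ • f v := fun σ v => by
    show toClass n χ ((act σ v : V) : Fin D.d → R) = _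
    rw [hact, HeckeGaloisModel.coe_eigenAction]
    exact toClass_gal hES n χ ι σ v
  have hfv : f v₀ ≠ 0 := fun h => hχ (by
    have h1 := ((GaloisReps.torsionIso N 2 (GaloisReps.conjProperty N)).psi n).symm.injective
      (Subtype.val_injective (h.trans (map_zero (GaloisReps.JTors N 2 n).subtype).symm)
        |>.trans (map_zero _).symm)
    exact congrFun h1 k)
  -- moved vectors
  have hmoved : ∀ v, f (c • v) ∈ movedGroup S.P2 N 2 := fun v => by
    refine ((Submodule.span_induction (p := fun x _ => ∀ r : R, f (r • x) ∈ movedGroup S.P2 N 2)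
      ?_ (fun r => by rw [smul_zero, map_zero]; exact zero_mem _)
      (fun x y _ _ hx hy r => by rw [smul_add, map_add]; exact add_mem (hx r) (hy r))
      (fun a x _ hx r => by rw [smul_smul]; exact hx _) (hall v)) 1 |> fun h => by rwa [one_smul] at h)
    rintro _ ⟨τ, hτ, w, rfl⟩ r
    refine AddSubgroup.subset_closure ⟨τ, hτ, f (r • w), n, toClass_mem n χ _, ?_⟩
    rw [← hfσ, ← map_sub, map_smul, smul_sub]
  -- descend to the residual plane
  obtain ⟨π, hπ⟩ := IsDiscreteValuationRing.exists_irreducible R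
  have hm : maximalIdeal R = Ideal.span {π} :=
    (IsDiscreteValuationRing.irreducible_iff_uniformizer π).mp hπ
  have hkill : ∀ r v, f ((((2 : ℕ) : R) ^ n * r) • v) = 0 := fun r v => by
    rw [← Nat.cast_pow, mul_smul, Nat.cast_smul_eq_nsmul, map_nsmul]
    exact toClass_mem n χ _
  have hex : ∃ j, ∀ v, f ((π ^ j * c) • v) = 0 := by
    have h20 : ((2 : ℕ) : R) ≠ 0 := Nat.cast_ne_zero.mpr two_ne_zero
    obtain ⟨e, u, hu⟩ := IsDiscreteValuationRing.eq_unit_mul_pow_irreducible (pow_ne_zero n h20) hπ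
    refine ⟨e, fun v => ?_⟩
    rw [show π ^ e * c = ((2 : ℕ) : R) ^ n * ((↑u⁻¹ : R) * c) by
      rw [hu, mul_comm (u : R), mul_assoc, Units.mul_inv_cancel_left]]
    exact hkill _ v
  obtain ⟨j₀, hj₀⟩ : ∃ j, Nat.find hex = j + 1 := by
    refine Nat.exists_eq_add_one.mpr (Nat.pos_of_ne_zero fun h0 => hfv ?_)
    have := Nat.find_spec hex (b 0)
    rwa [h0, pow_zero, one_mul] at this
  set c' := π ^ j₀ * c
  let h : V →+ JZero N := f.comp (c' • LinearMap.id : V →ₗ[R] V).toAddMonoidHom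
  have hh : ∀ v, h v = f (c' • v) := fun v => rfl
  have hh0 : h ≠ 0 := fun h0 => Nat.find_min hex (show j₀ < Nat.find hex by omega) fun v =>
    (hh v).symm.trans (DFunLike.congr_fun h0 v)
  have hhm : ∀ r ∈ maximalIdeal R, ∀ v, h (r • v) = 0 := by
    intro r hr v
    rw [hm, Ideal.mem_span_singleton] at hr
    obtain ⟨t, rfl⟩ := hr
    rw [hh, smul_smul, show c' * (π * t) = π ^ (j₀ + 1) * c * t by ring, ← hj₀, mul_smul]
    exact Nat.find_spec hex _
  have hhσ : ∀ σ v, h (act σ v) = σ • h v := fun σ v => by rw [hh, hh, ← hfσ, (act σ).map_smul]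
  have hh2 : ∀ v, 2 • h v = 0 := fun v => by
    rw [← map_nsmul, ← Nat.cast_smul_eq_nsmul R]
    exact hhm _ (by exact_mod_cast h2) v
  refine hh0 (hom_moved_eq_zero S act b φ htr h4 hord h hhm hhσ hh2 fun v => ?_)
  rw [hh, show c' • v = c • (π ^ j₀ • v) by rw [smul_smul, mul_comm]]
  exact hmoved _

/-- `LineAtTwo` for the model of the Jacobian. -/
theorem lineAtTwo {M : ℕ} [NeZero M] (hES : GaloisReps.CongruenceProperty M 2)
    (S : TwoAdic.Deform.Setting O)
    (hord : ∀ (N : ℕ) [NeZero N], N ∣ M → ¬ 2 ∣ N → Mazur.Eisenstein.OrderProperty N) :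
    TwoAdic.Module.LineAtTwo S (GaloisReps.modelOfCongruence hES) := by
  intro h4 R _ _ _ _ _ _ h2 ι θ' φ htr
  set D := GaloisReps.modelOfCongruence hES
  rcases exists_functional_or_smul (Submodule.span R {y | ∃ τ ∈ S.P2.inertiaSubgroupIn ℚ, ∃ w,
      D.eigenAction ι θ' τ w - w = y}) with ⟨ψ, hψ, hψW⟩ | ⟨c, hc, hcW⟩
  · refine ⟨fun a => ψ (D.eigenBasis θ' a), fun h0 => hψ ((D.eigenBasis θ').ext fun a =>
      congrFun h0 a), fun σ hσ => funext fun a => ?_⟩
    have h1 := hψW _ (Submodule.subset_span ⟨σ, hσ, D.eigenBasis θ' a, rfl⟩)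
    rw [map_sub, sub_eq_zero, ← (D.eigenBasis θ').sum_repr (D.eigenAction ι θ' σ _), map_sum] at h1
    rw [← h1]
    simp only [Matrix.vecMul, dotProduct, map_smul, smul_eq_mul, HeckeGaloisModel.eigenMatrix,
      LinearMap.toMatrix_apply, mul_comm]
  · obtain ⟨v, hv⟩ := not_smul_mem_movedSpan hES S h4 hord h2 ι θ' φ htr hc
    exact absurd (hcW v) hv

end Fermat.Agent.OrdinaryAtP

end
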