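import Fermat.Agent.OrdinaryAtP.Statement
import Fermat.Agent.Semistable.LocalTheory
import Fermat.Agent.CFT.Flat.Norm

/-!
# Inertia moves torsion classes into the flat classes

A torsion class of level `p M` has a Kummer function which is integral at both Gauss valuations
with nonzero reductions. An element of inertia changes such a function by one whose reductions are
both one.
-/

set_option autoImplicit false
set_option synthInstance.maxHeartbeats 400000
set_option maxHeartbeats 1000000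
set_option linter.unusedSectionVars false

noncomputable section

namespace Fermat.Agent.OrdinaryAtP

open AlgebraicCurve ModularCurve Semistable JacTorsion
open Arith (QBar GQ)
open scoped Pointwise

variable {A : ValuationSubring QBar} {M p : ℕ} [NeZero M] [Fact p.Prime] (hpM : ¬ p ∣ M)

variable (A M p) in
/-- A class killed by `m` with a Kummer function both of whose reductions are one. -/
def IsFlatMul (m : ℕ) (y : Pic0 QBar (FB (p * M))) : Prop :=
  ∃ (D : Divisor.degZero (K := QBar) (F := FB (p * M))) (f : FB (p * M)),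
    Pic0.mk D = y ∧ f ≠ 0 ∧
      (∀ v : Place QBar (FB (p * M)), v.ord f = (m : ℤ) * (D : Divisor QBar (FB (p * M))) v) ∧
      HasUnitRed A M p hpM f

theorem HasUnitRed.ne_zero {f : FB (p * M)} (hf : HasUnitRed A M p hpM f) : f ≠ 0 := fun h0 => by
  obtain ⟨h, e⟩ := hf
  have h1 := congrFun e 0
  rw [show (⟨f, h⟩ : loc2 A (iota2 M p hpM)) = 0 from Subtype.ext h0, map_zero] at h1
  exact zero_ne_one h1

theorem isFlatMul_zero (m : ℕ) : IsFlatMul A M p hpM m 0 :=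
  ⟨0, 1, rfl, one_ne_zero, fun v => by simp, hasUnitRed_one hpM⟩

theorem IsFlatMul.add {m : ℕ} {x y : Pic0 QBar (FB (p * M))} (hx : IsFlatMul A M p hpM m x)
    (hy : IsFlatMul A M p hpM m y) : IsFlatMul A M p hpM m (x + y) := by
  obtain ⟨D, f, rfl, hf0, hf, hfu⟩ := hx
  obtain ⟨E, g, rfl, hg0, hg, hgu⟩ := hy
  refine ⟨D + E, f * g, rfl, mul_ne_zero hf0 hg0, fun v => ?_, hfu.mul hpM hgu⟩
  rw [v.ord_mul hf0 hg0, hf, hg, AddSubgroup.coe_add, Finsupp.add_apply, mul_add]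

theorem IsFlatMul.neg {m : ℕ} {x : Pic0 QBar (FB (p * M))} (hx : IsFlatMul A M p hpM m x) :
    IsFlatMul A M p hpM m (-x) := by
  obtain ⟨D, f, rfl, hf0, hf, hfu⟩ := hx
  refine ⟨-D, f⁻¹, rfl, inv_ne_zero hf0, fun v => ?_, hfu.inv hpM⟩
  rw [v.ord_inv, hf, AddSubgroup.coe_neg, Finsupp.neg_apply, mul_neg]

variable (A M p) in
/-- The flat classes killed by `m`. -/
def flatGroup (m : ℕ) : AddSubgroup (Pic0 QBar (FB (p * M))) where
  carrier := {y | IsFlatMul A M p hpM m y}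
  zero_mem' := isFlatMul_zero hpM m
  add_mem' hx hy := hx.add hpM hy
  neg_mem' hx := hx.neg hpM

theorem mem_flatGroup {m : ℕ} {y : Pic0 QBar (FB (p * M))} :
    y ∈ flatGroup A M p hpM m ↔ IsFlatMul A M p hpM m y := Iff.rfl

/-- Flat classes are killed by `m`. -/
theorem IsFlatMul.nsmul_eq_zero {m : ℕ} {y : Pic0 QBar (FB (p * M))}
    (hy : IsFlatMul A M p hpM m y) : m • y = 0 := by
  obtain ⟨D, f, rfl, hf0, hf, -⟩ := hy
  show ((m • D : Divisor.degZero (K := QBar) (F := FB (p * M))) : Pic0 QBar (FB (p * M))) = 0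
  refine (QuotientAddGroup.eq_zero_iff _).mpr ?_
  rw [AddSubgroup.mem_addSubgroupOf]
  refine ⟨f, hf0, fun v => ?_⟩
  rw [AddSubgroupClass.coe_nsmul, Finsupp.smul_apply, nsmul_eq_mul, hf]

/-- The difference of the two Gauss valuations takes every value. -/
theorem exists_balance [CharP (Res A) p] (hA : A.LiesOverPrime p) {γ : QBar} (hγ : γ ∈ A.nonunits)
    (hγ0 : γ ≠ 0) :
    ∃ h : FB (p * M), ∃ (h₀ : iota2 M p hpM 0 h ∈ locS A)
      (h₁ : algebraMap QBar LSer γ⁻¹ * iota2 M p hpM 1 h ∈ locS A),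
      redL A ⟨_, h₀⟩ = 1 ∧ redL A ⟨_, h₁⟩ = 1 := by
  obtain ⟨e, -, he, -⟩ := exists_idem (A := A) M p hpM
  have he0 := (mem_loc2 (iota2 M p hpM)).mp e.2 0
  have he1 := (mem_loc2 (iota2 M p hpM)).mp e.2 1
  have r0 : redL A ⟨_, he0⟩ = 1 := by rw [← red2_apply, he]; simp
  have r1 : redL A ⟨_, he1⟩ = 0 := by rw [← red2_apply, he]; simp
  have he_ne : (e : FB (p * M)) ≠ 0 := fun h0 => one_ne_zero (α := LaurentSeries (Res A)) (by
    rw [← r0, show (⟨_, he0⟩ : locS A) = 0 from Subtype.ext (by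
      show iota2 M p hpM 0 (e : FB (p * M)) = 0
      rw [h0, map_zero]), map_zero])
  obtain ⟨c, hc, hce, hcr⟩ :=
    exists_scale hA (Fact.out : p.Prime) (locS_le_fracS he1) ((_root_.map_ne_zero _).mpr he_ne)
  have hcinv : c⁻¹ ∈ A.nonunits := by
    by_contra hu
    have hv : A.valuation c ≤ 1 := by
      rcases mem_nonunits_or_valuation_ge (A := A) (x := c⁻¹) with h | h
      · exact absurd h hu
      · rwa [map_inv₀, one_le_inv₀ (zero_lt_iff.mpr ((Valuation.ne_zero_iff _).mpr hc))] at h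
    obtain ⟨h', e'⟩ := redL_const_mul ((A.valuation_le_one_iff _).mp hv) he1
    exact hcr (by rw [e', r1, mul_zero])
  obtain ⟨k, hk⟩ := exists_pow_valuation_lt hA (Fact.out : p.Prime) hcinv hγ0
  have hk0 : k ≠ 0 := fun h0 => by
    rw [h0, pow_zero, map_one] at hk
    exact (not_lt.mpr ((A.valuation_le_one_iff _).mpr (Arith.mem_of_mem_nonunits hγ))) hk
  set d := c⁻¹ ^ k * γ⁻¹ with hd
  have hdn : d ∈ A.nonunits := by
    rw [ValuationSubring.mem_nonunits_iff, hd, map_mul, map_inv₀, ← div_eq_mul_inv,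
      div_lt_one₀ (zero_lt_iff.mpr ((Valuation.ne_zero_iff _).mpr hγ0))]
    exact hk
  have hdA := Arith.mem_of_mem_nonunits hdn
  have hγA := Arith.mem_of_mem_nonunits hγ
  have hsum : algebraMap QBar LSer γ⁻¹ *
      iota2 M p hpM 1 ((e : FB (p * M)) ^ k + algebraMap QBar _ γ) =
      (((⟨_, algebraMap_mem_locS hdA⟩ : locS A) * ⟨_, hce⟩ ^ k + 1 : locS A) : LSer) := by
    rw [map_add, map_pow, AlgHom.commutes]
    show _ = algebraMap QBar LSer d * (algebraMap QBar LSer c * iota2 M p hpM 1 e) ^ k + 1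
    rw [mul_add, ← map_mul, inv_mul_cancel₀ hγ0, map_one, hd, map_mul, map_pow, mul_pow,
      add_left_inj]
    rw [map_inv₀ _ c, inv_pow]
    field_simp [(_root_.map_ne_zero (algebraMap QBar LSer)).mpr hc]
  have hsum0 : iota2 M p hpM 0 ((e : FB (p * M)) ^ k + algebraMap QBar _ γ) =
      (((⟨_, he0⟩ : locS A) ^ k + ⟨_, algebraMap_mem_locS hγA⟩ : locS A) : LSer) := by
    rw [map_add, map_pow, AlgHom.commutes]
    rfl
  refine ⟨_, hsum0 ▸ SetLike.coe_mem _, hsum ▸ SetLike.coe_mem _, ?_, ?_⟩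
  · rw [redL_congr _ (SetLike.coe_mem _) hsum0, Subtype.coe_eta, map_add, map_pow, r0, one_pow,
      redL_algebraMap hγA, (residue_eq_zero_iff hγA).mpr hγ, map_zero, add_zero]
  · rw [redL_congr _ (SetLike.coe_mem _) hsum, Subtype.coe_eta, map_add, map_mul, map_one,
      redL_algebraMap hdA, (residue_eq_zero_iff hdA).mpr hdn, map_zero, zero_mul, zero_add]

/-- Scalars are absorbed by a function: for every `γ ≠ 0` some function has scale `(1, γ⁻¹)`. -/
theorem exists_scaled [CharP (Res A) p] (hA : A.LiesOverPrime p) {γ : QBar} (hγ0 : γ ≠ 0) :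
    ∃ h : FB (p * M), h ≠ 0 ∧ ∃ (h₀ : iota2 M p hpM 0 h ∈ locS A)
      (h₁ : algebraMap QBar LSer γ⁻¹ * iota2 M p hpM 1 h ∈ locS A),
      redL A ⟨_, h₀⟩ ≠ 0 ∧ redL A ⟨_, h₁⟩ ≠ 0 := by
  have hne : ∀ {x : FB (p * M)} (h₀ : iota2 M p hpM 0 x ∈ locS A), redL A ⟨_, h₀⟩ ≠ 0 → x ≠ 0 :=
    fun h₀ hr h0 => hr (by
      rw [show (⟨_, h₀⟩ : locS A) = 0 from Subtype.ext (by
        show iota2 M p hpM 0 _ = 0
        rw [h0, map_zero]), map_zero])
  rcases mem_nonunits_or_valuation_ge (A := A) (x := γ) with hn | hge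
  · obtain ⟨h, h₀, h₁, r₀, r₁⟩ := exists_balance hpM hA hn hγ0
    exact ⟨h, hne h₀ (by rw [r₀]; exact one_ne_zero), h₀, h₁, by rw [r₀]; exact one_ne_zero,
      by rw [r₁]; exact one_ne_zero⟩
  · rcases eq_or_lt_of_le hge with he | hlt
    · have hi : γ⁻¹ ∈ A := (A.valuation_le_one_iff _).mp (by rw [map_inv₀, ← he, inv_one])
      have h₀ : iota2 M p hpM 0 1 ∈ locS A := by rw [map_one]; exact one_mem _
      have h₁ : algebraMap QBar LSer γ⁻¹ * iota2 M p hpM 1 1 ∈ locS A := by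
        rw [map_one, mul_one]; exact algebraMap_mem_locS hi
      refine ⟨1, one_ne_zero, h₀, h₁, ?_, ?_⟩
      · rw [redL_congr _ (one_mem _) (map_one (iota2 M p hpM 0)),
          show (⟨(1 : LSer), one_mem _⟩ : locS A) = 1 from rfl, map_one]
        exact one_ne_zero
      · rw [redL_congr _ (algebraMap_mem_locS hi) (by rw [map_one, mul_one]), redL_algebraMap hi]
        refine (_root_.map_ne_zero _).mpr fun h0 => ?_
        have := (ValuationSubring.mem_nonunits_iff A).mp ((residue_eq_zero_iff hi).mp h0)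
        rw [map_inv₀, ← he, inv_one] at this
        exact lt_irrefl _ this
    · have hn : γ⁻¹ ∈ A.nonunits := by
        rw [ValuationSubring.mem_nonunits_iff, map_inv₀]
        exact inv_lt_one_of_one_lt₀ hlt
      obtain ⟨h, h₀, h₁, r₀, r₁⟩ := exists_balance hpM hA hn (inv_ne_zero hγ0)
      obtain ⟨i₀, e₀⟩ := inv_mem_locS h₀ (by rw [r₀]; exact one_ne_zero)
      obtain ⟨i₁, e₁⟩ := inv_mem_locS h₁ (by rw [r₁]; exact one_ne_zero)
      have E₀ : iota2 M p hpM 0 h⁻¹ = (iota2 M p hpM 0 h)⁻¹ := map_inv₀ _ _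
      have E₁ : algebraMap QBar LSer γ⁻¹ * iota2 M p hpM 1 h⁻¹ =
          (algebraMap QBar LSer γ⁻¹⁻¹ * iota2 M p hpM 1 h)⁻¹ := by
        rw [mul_inv, ← map_inv₀ (algebraMap QBar LSer), inv_inv, map_inv₀ (iota2 M p hpM 1)]
      refine ⟨h⁻¹, inv_ne_zero (hne h₀ (by rw [r₀]; exact one_ne_zero)), E₀ ▸ i₀, E₁ ▸ i₁, ?_, ?_⟩
      · rw [redL_congr _ i₀ E₀, e₀, r₀, inv_one]; exact one_ne_zero
      · rw [redL_congr _ i₁ E₁, e₁, r₁, inv_one]; exact one_ne_zero

/-- **Normalisation**: an `m`-th power and a constant make both reductions nonzero. -/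
theorem exists_normalised [CharP (Res A) p] (hA : A.LiesOverPrime p) {m : ℕ} (hm : m ≠ 0)
    {f : FB (p * M)} (hf : f ≠ 0) :
    ∃ (c : QBar) (h : FB (p * M)), c ≠ 0 ∧ h ≠ 0 ∧
      ∃ hmem : algebraMap QBar _ c * h ^ m * f ∈ loc2 A (iota2 M p hpM),
        ∀ s, red2 A (iota2 M p hpM) ⟨_, hmem⟩ s ≠ 0 := by
  obtain ⟨c₀, hc₀, hm₀, hr₀⟩ := exists_scale hA (Fact.out : p.Prime)
    (iota2_fracS (A := A) M p hpM 0 f) ((_root_.map_ne_zero _).mpr hf)
  obtain ⟨c₁, hc₁, hm₁, hr₁⟩ := exists_scale hA (Fact.out : p.Prime)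
    (iota2_fracS (A := A) M p hpM 1 f) ((_root_.map_ne_zero _).mpr hf)
  obtain ⟨γ, hγ⟩ := IsAlgClosed.exists_pow_nat_eq (c₁ / c₀) (Nat.pos_of_ne_zero hm)
  have hγ0 : γ ≠ 0 := fun h0 => by
    rw [h0, zero_pow hm] at hγ
    exact div_ne_zero hc₁ hc₀ hγ.symm
  obtain ⟨h, hh, h₀, h₁, r₀, r₁⟩ := exists_scaled hpM hA hγ0
  have E₀ : iota2 M p hpM 0 (algebraMap QBar _ c₀ * h ^ m * f) =
      (((⟨_, h₀⟩ : locS A) ^ m * ⟨_, hm₀⟩ : locS A) : LSer) := by
    rw [map_mul, map_mul, map_pow, AlgHom.commutes]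
    show _ = iota2 M p hpM 0 h ^ m * (algebraMap QBar LSer c₀ * iota2 M p hpM 0 f)
    ring
  have E₁ : iota2 M p hpM 1 (algebraMap QBar _ c₀ * h ^ m * f) =
      (((⟨_, h₁⟩ : locS A) ^ m * ⟨_, hm₁⟩ : locS A) : LSer) := by
    rw [map_mul, map_mul, map_pow, AlgHom.commutes]
    show _ = (algebraMap QBar LSer γ⁻¹ * iota2 M p hpM 1 h) ^ m *
      (algebraMap QBar LSer c₁ * iota2 M p hpM 1 f)
    have : algebraMap QBar LSer c₀ = algebraMap QBar LSer γ⁻¹ ^ m * algebraMap QBar LSer c₁ := by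
      rw [← map_pow, ← map_mul, inv_pow, hγ]
      congr 1
      field_simp
    rw [this, mul_pow]
    ring
  have hmem : algebraMap QBar _ c₀ * h ^ m * f ∈ loc2 A (iota2 M p hpM) := by
    rw [mem_loc2, Fin.forall_fin_two, E₀, E₁]
    exact ⟨SetLike.coe_mem _, SetLike.coe_mem _⟩
  refine ⟨c₀, h, hc₀, hh, hmem, Fin.forall_fin_two.mpr ⟨?_, ?_⟩⟩
  · rw [red2_apply, redL_congr _ (SetLike.coe_mem _) E₀, Subtype.coe_eta, map_mul, map_pow]
    exact mul_ne_zero (pow_ne_zero _ r₀) hr₀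
  · rw [red2_apply, redL_congr _ (SetLike.coe_mem _) E₁, Subtype.coe_eta, map_mul, map_pow]
    exact mul_ne_zero (pow_ne_zero _ r₁) hr₁

/-- A torsion class has a Kummer function with both reductions nonzero. -/
theorem exists_kummer_loc2 [CharP (Res A) p] (hA : A.LiesOverPrime p) {m : ℕ} (hm : m ≠ 0)
    {x : Pic0 QBar (FB (p * M))} (hx : m • x = 0) :
    ∃ (D : Divisor.degZero (K := QBar) (F := FB (p * M))) (f : loc2 A (iota2 M p hpM)),
      Pic0.mk D = x ∧
      (∀ v : Place QBar (FB (p * M)),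
        v.ord (f : FB (p * M)) = (m : ℤ) * (D : Divisor QBar (FB (p * M))) v) ∧
      ∀ s, red2 A (iota2 M p hpM) f s ≠ 0 := by
  obtain ⟨D, rfl⟩ := Pic0.mk_surjective x
  obtain ⟨f, hf0, hf⟩ : ((m • D : Divisor.degZero (K := QBar) (F := FB (p * M))) :
      Divisor QBar (FB (p * M))) ∈ Divisor.principal (K := QBar) (F := FB (p * M)) :=
    AddSubgroup.mem_addSubgroupOf.mp ((QuotientAddGroup.eq_zero_iff _).mp hx)
  obtain ⟨c, h, hc, hh, hmem, hr⟩ := exists_normalised hpM hA hm hf0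
  let E : Divisor.degZero (K := QBar) (F := FB (p * M)) :=
    ⟨FF.div QBar h, FF.degree_div h⟩
  refine ⟨D + E, ⟨_, hmem⟩, ?_, fun v => ?_, hr⟩
  · refine (QuotientAddGroup.eq_iff_sub_mem).mpr ?_
    rw [add_sub_cancel_left, AddSubgroup.mem_addSubgroupOf]
    exact ⟨h, hh, fun v => FF.div_apply _ _⟩
  · show v.ord (algebraMap QBar _ c * h ^ m * f) = _
    have hch : algebraMap QBar (FB (p * M)) c ≠ 0 := (_root_.map_ne_zero _).mpr hc
    rw [v.ord_mul (mul_ne_zero hch (pow_ne_zero _ hh)) hf0, v.ord_mul hch (pow_ne_zero _ hh),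
      FF.ord_algebraMap v c, FF.ord_pow, ← hf v, AddSubgroupClass.coe_nsmul, Finsupp.smul_apply,
      AddSubgroup.coe_add, Finsupp.add_apply]
    show 0 + (m : ℤ) * v.ord h + m • (D : Divisor QBar (FB (p * M))) v =
      (m : ℤ) * ((D : Divisor QBar (FB (p * M))) v + FF.div QBar h v)
    rw [FF.div_apply, nsmul_eq_mul]
    ring

/-- Inertia moves a class killed by `m` by a flat class. -/
theorem isFlatMul_smul_sub [CharP (Res A) p] (hA : A.LiesOverPrime p) {m : ℕ} (hm : m ≠ 0)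
    {x : JZero (p * M)} (hx : m • x = 0) {τ : GQ} (hτ : τ ∈ A.inertiaSubgroupIn ℚ) :
    IsFlatMul A M p hpM m (τ • x - x) := by
  obtain ⟨D, f, rfl, hord, hr⟩ := exists_kummer_loc2 hpM hA hm hx
  obtain ⟨hσ, hσr⟩ := (resLift_of_inertia hτ).galF_mem_loc2 M p hpM f
  obtain ⟨hi, hir⟩ := inv_mem_loc2 (iota2 M p hpM) f hr
  set g := arithmeticGalois (modularFunctionFieldFull (p * M)) τ
  have hf0 : (f : FB (p * M)) ≠ 0 := fun h0 => hr 0 (by
    rw [show f = 0 from Subtype.ext h0, map_zero, Pi.zero_apply])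
  have hσ0 : galF (p * M) τ (f : FB (p * M)) ≠ 0 := (_root_.map_ne_zero _).mpr hf0
  refine ⟨SemilinearAut.degZeroSMulHom g D - D, galF (p * M) τ (f : FB (p * M)) * (f : FB (p * M))⁻¹,
    rfl, mul_ne_zero hσ0 (inv_ne_zero hf0), fun v => ?_, mul_mem hσ hi, ?_⟩
  · rw [v.ord_mul hσ0 (inv_ne_zero hf0), v.ord_inv, hord, ord_galF τ hord, AddSubgroupClass.coe_sub,
      Finsupp.sub_apply, SemilinearAut.coe_degZeroSMulHom]
    ring
  · rw [show (⟨galF (p * M) τ (f : FB (p * M)) * (f : FB (p * M))⁻¹, mul_mem hσ hi⟩ :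
      loc2 A (iota2 M p hpM)) = ⟨_, hσ⟩ * ⟨_, hi⟩ from rfl, map_mul]
    funext s
    rw [Pi.mul_apply, hσr, coeffMap_id, hir, mul_inv_cancel₀ (hr s), Pi.one_apply]

/-- **The moved group consists of flat classes**, level by level. -/
theorem movedGroup_torsion_le [CharP (Res A) p] (hA : A.LiesOverPrime p) (n : ℕ) :
    AddSubgroup.closure {y | ∃ τ ∈ A.inertiaSubgroupIn ℚ, ∃ x : JZero (p * M),
        p ^ n • x = 0 ∧ τ • x - x = y} ≤ flatGroup A M p hpM (p ^ n) := by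
  rw [AddSubgroup.closure_le]
  rintro _ ⟨τ, hτ, x, hx, rfl⟩
  exact isFlatMul_smul_sub hpM hA (pow_ne_zero _ (Fact.out : p.Prime).ne_zero) hx hτ

end Fermat.Agent.OrdinaryAtP

end
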